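import Fermat.Agent.TWPrimes.Units.GE

/-!
# The bounds from units
-/

set_option autoImplicit false

noncomputable section

namespace FLTAgent.TWPrimes

theorem targetUnits : TargetUnits := by
  intro p _ _ S₁ F _ A A' _ _ _ _ _ _ ρ ρ' P hρ hρ'
  exact ⟨fun e he => Units.eulerLE P hρ hρ' e he,
    fun H Pn _ hNP hPH hconj hidx hom e hee hcomm htriv hoff hsum =>
      Units.eulerGE P hρ hρ' H Pn hNP hPH hconj hidx hom e hee hcomm htriv hoff hsum⟩

end FLTAgent.TWPrimes
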