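import Fermat.Agent.TWPrimes.Units.Dirichlet
import Fermat.Agent.Lowering.P1.UnitBound.Units
import Fermat.Agent.PoitouTate.Field.Kummer

/-!
# Homomorphisms into the units modulo `p`, against the places

For a group `B₀` of automorphisms and a subgroup `A₀` acting trivially on a module with a
relatively projective structure, homomorphisms into the units of the fixed field of `A₀` and into
the functions on the places differ by the two lines.
-/

set_option autoImplicit false
set_option linter.style.haveILetI false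
set_option linter.unusedSectionVars false

noncomputable section

namespace FLTAgent.TWPrimes.Units

open FLTAgent.PoitouTate
open FLTAgent.Lowering.P1.UnitBound (Probe eqHom ModP modPMap modPRep modPRep_mk actFree redP
  redP_mk mk_eq_zero_iff finite_subgroup eq_zero_of_two_nsmul)

local notation "LL" => AlgebraicClosure ℚ
local notation "GG" => (AlgebraicClosure ℚ ≃ₐ[ℚ] AlgebraicClosure ℚ)

variable {p : ℕ} [Fact p.Prime]

/-! ### Fixed submodules -/

section Fixed

variable {Γ : Type} [Group Γ] (B₀ A₀ : Subgroup Γ) {M : Type} [AddCommGroup M]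
  (α : Γ →* AddMonoid.End M)

/-- The elements fixed by a subgroup. -/
def fixM : AddSubgroup M where
  carrier := {m | ∀ a ∈ A₀, α a m = m}
  zero_mem' := fun a _ => map_zero _
  add_mem' := fun {x y} hx hy a ha => by rw [map_add, hx a ha, hy a ha]
  neg_mem' := fun {x} hx a ha => by rw [map_neg, hx a ha]

variable [(A₀.subgroupOf B₀).Normal] (hle : A₀ ≤ B₀)

include hle in
theorem map_mem_fixM (b : ↥B₀) {m : M} (hm : m ∈ fixM A₀ α) : α b m ∈ fixM A₀ α := by
  intro a ha
  have h : (b⁻¹ * ⟨a, hle ha⟩ * b⁻¹⁻¹ : ↥B₀) ∈ A₀.subgroupOf B₀ :=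
    (inferInstance : (A₀.subgroupOf B₀).Normal).conj_mem _ ha b⁻¹
  have h' : α ((b⁻¹ * ⟨a, hle ha⟩ * b⁻¹⁻¹ : ↥B₀) : Γ) m = m := hm _ h
  calc α a (α b m) = α (b : Γ) (α ((b⁻¹ * ⟨a, hle ha⟩ * b⁻¹⁻¹ : ↥B₀) : Γ) m) := by
        show (α a * α b) m = (α (b : Γ) * α _) m
        rw [← map_mul, ← map_mul]
        congr 2
        simp [mul_assoc]
    _ = α (b : Γ) m := by rw [h']

/-- The quotient acts on the fixed elements. -/
def fixAct : (↥B₀ ⧸ A₀.subgroupOf B₀) →* AddMonoid.End (fixM A₀ α) :=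
  QuotientGroup.lift _
    { toFun := fun b => ((α (b : Γ) : M →+ M).comp (fixM A₀ α).subtype).codRestrict (fixM A₀ α)
        fun m => map_mem_fixM B₀ A₀ α hle b m.2
      map_one' := AddMonoidHom.ext fun m => Subtype.ext (by
        show α ((1 : ↥B₀) : Γ) (m : M) = _
        rw [OneMemClass.coe_one, map_one]; rfl)
      map_mul' := fun a b => AddMonoidHom.ext fun m => Subtype.ext (by
        show α ((a * b : ↥B₀) : Γ) (m : M) = _
        rw [Subgroup.coe_mul, map_mul]; rfl) }
    fun a ha => MonoidHom.mem_ker.2 (AddMonoidHom.ext fun m => Subtype.ext (m.2 _ ha))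

theorem fixAct_mk (b : ↥B₀) (m : fixM A₀ α) :
    (fixAct B₀ A₀ α hle (QuotientGroup.mk b) m : M) = α (b : Γ) m := rfl

theorem fixAct_apply (q : ↥B₀ ⧸ A₀.subgroupOf B₀) (m : fixM A₀ α) :
    (fixAct B₀ A₀ α hle q m : M) = α ((q.out : ↥B₀) : Γ) m := by
  conv_lhs => rw [← QuotientGroup.out_eq' q]
  rfl

end Fixed

/-! ### Probes with trivial trace -/

section Full

variable {Q : Type} [Group Q] [Fintype Q] {P : Type} [AddCommGroup P] [Module (ZMod p) P]
  [Module.Finite (ZMod p) P] (π : Representation (ZMod p) Q P) (e : P →ₗ[ZMod p] P)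
  (he : ∀ x, ∑ g : Q, π g (e (π g⁻¹ x)) = x)
  {V : Type} [AddCommGroup V] [Module (ZMod p) V]

/-- The probe of a relatively projective module. -/
def fullProbe : Probe p Q P where
  π := π
  e := e
  idem := fun x => by rw [he x, he x]

theorem fullProbe_tr : (fullProbe π e he).tr = LinearMap.id :=
  LinearMap.ext fun x => by rw [Probe.tr_apply]; exact he x

theorem fullProbe_dim (ρ : Representation (ZMod p) Q V) :
    (fullProbe π e he).dim ρ = Module.finrank (ZMod p) ↥(eqHom π ρ) := by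
  have h : (fullProbe π e he).within ρ ⊤ = eqHom π ρ := le_antisymm (fun φ hφ => hφ.1)
    fun φ hφ => ⟨hφ, by rw [fullProbe_tr, LinearMap.comp_id], fun _ => Submodule.mem_top⟩
  rw [Probe.dim, Probe.dimIn, h]

/-- The functionals of a weight. -/
def linHom (w : Q → ZMod p) : Submodule (ZMod p) (P →ₗ[ZMod p] ZMod p) where
  carrier := {L | ∀ q v, L (π q v) = w q * L v}
  zero_mem' := fun q v => by simp
  add_mem' := fun {a b} ha hb q v => by simp [ha q v, hb q v, mul_add]
  smul_mem' := fun c a ha q v => by simp [ha q v, mul_left_comm]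

theorem mem_linHom {w : Q → ZMod p} {L : P →ₗ[ZMod p] ZMod p} :
    L ∈ linHom π w ↔ ∀ q v, L (π q v) = w q * L v := Iff.rfl

theorem dimIn_line (ρ : Representation (ZMod p) Q V) {v : V} (hv0 : v ≠ 0) (w : Q → ZMod p)
    (hv : ∀ q, ρ q v = w q • v) :
    (fullProbe π e he).dimIn ρ (Submodule.span (ZMod p) {v}) =
      Module.finrank (ZMod p) ↥(linHom π w) := by
  let f : ↥(linHom π w) →ₗ[ZMod p]
      ↥((fullProbe π e he).within ρ (Submodule.span (ZMod p) {v})) :=
    { toFun := fun L => ⟨L.1.smulRight v, fun q x => by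
          show L.1 (π q x) • v = ρ q (L.1 x • v)
          rw [L.2 q x, map_smul, hv, smul_smul, mul_comm],
        by rw [fullProbe_tr, LinearMap.comp_id],
        fun x => Submodule.smul_mem _ _ (Submodule.mem_span_singleton_self v)⟩
      map_add' := fun a b => Subtype.ext (LinearMap.ext fun x => add_smul _ _ _)
      map_smul' := fun c a => Subtype.ext (LinearMap.ext fun x => (smul_smul c _ _).symm) }
  rw [Probe.dimIn]
  refine (LinearEquiv.ofBijective f ⟨?_, ?_⟩).finrank_eq.symm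
  · intro a b h
    refine Subtype.ext (LinearMap.ext fun x => smul_left_injective (ZMod p) hv0 ?_)
    exact LinearMap.congr_fun (congrArg Subtype.val h) x
  · intro φ
    let L := (LinearEquiv.toSpanNonzeroSingleton (ZMod p) V v hv0).symm.toLinearMap ∘ₗ
      φ.1.codRestrict _ φ.2.2.2
    have hL : ∀ x, L x • v = φ.1 x := fun x => congrArg Subtype.val
      ((LinearEquiv.toSpanNonzeroSingleton (ZMod p) V v hv0).apply_symm_apply
        (φ.1.codRestrict _ φ.2.2.2 x))
    refine ⟨⟨L, fun q x => smul_left_injective (ZMod p) hv0 ?_⟩,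
      Subtype.ext (LinearMap.ext hL)⟩
    show L (π q x) • v = (w q * L x) • v
    rw [hL]
    refine (φ.2.1 q x).trans ?_
    rw [← hL, map_smul, hv, smul_smul, mul_comm]

end Full

/-! ### Functions on a finite set -/

section Perm

variable {Γ : Type} [Group Γ] (Z : Type) [MulAction Γ Z]

/-- The action on integer valued functions. -/
def permΓ : Γ →* AddMonoid.End (Z → ℤ) where
  toFun g :=
    { toFun := fun f z => f (g⁻¹ • z)
      map_zero' := rfl
      map_add' := fun a b => rfl }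
  map_one' := AddMonoidHom.ext fun f => funext fun z => by
    show f ((1 : Γ)⁻¹ • z) = f z
    rw [inv_one, one_smul]
  map_mul' g h := AddMonoidHom.ext fun f => funext fun z => by
    show f ((g * h)⁻¹ • z) = f (h⁻¹ • g⁻¹ • z)
    rw [mul_inv_rev, mul_smul]

theorem permΓ_apply (g : Γ) (f : Z → ℤ) (z : Z) : permΓ Z g f z = f (g⁻¹ • z) := rfl

variable {B₀ A₀ : Subgroup Γ} [(A₀.subgroupOf B₀).Normal]
  {P : Type} [AddCommGroup P] [Module (ZMod p) P]
  (π : Representation (ZMod p) (↥B₀ ⧸ A₀.subgroupOf B₀) P)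

/-- Homomorphisms into the functions. -/
def permHom : Submodule (ZMod p) (P →ₗ[ZMod p] (Z → ZMod p)) where
  carrier := {φ | ∀ (b : ↥B₀) v z, φ (π (QuotientGroup.mk b) v) z = φ v ((b : Γ)⁻¹ • z)}
  zero_mem' := fun _ _ _ => rfl
  add_mem' := fun {a b} ha hb g v z => by simp [ha g v z, hb g v z]
  smul_mem' := fun c a ha g v z => by simp [ha g v z]

theorem permHom_fixed (hle : A₀ ≤ B₀) {φ : P →ₗ[ZMod p] (Z → ZMod p)} (hφ : φ ∈ permHom Z π)
    {a : Γ} (ha : a ∈ A₀) (v : P) (z : Z) : φ v (a⁻¹ • z) = φ v z := by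
  have h := hφ ⟨a, hle ha⟩ v z
  rw [(QuotientGroup.eq_one_iff _).2 (show (⟨a, hle ha⟩ : ↥B₀) ∈ A₀.subgroupOf B₀ from ha),
    map_one] at h
  exact h.symm

theorem finrank_eqHom_permΓ [Fintype Z] (hle : A₀ ≤ B₀) :
    Module.finrank (ZMod p) ↥(eqHom π (modPRep (p := p) (fixAct B₀ A₀ (permΓ Z) hle))) =
      Module.finrank (ZMod p) ↥(permHom Z π) := by
  let r := redP (p := p) (Z := Z) (fixM A₀ (permΓ Z)).subtype
  have hr : Function.Injective r := by
    refine (injective_iff_map_eq_zero _).2 fun v hv => ?_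
    induction v using QuotientAddGroup.induction_on with
    | H f =>
      have h : ∀ z, (p : ℤ) ∣ f.1 z := fun z =>
        (ZMod.intCast_zmod_eq_zero_iff_dvd _ _).1 (congrFun hv z)
      choose q hq using h
      refine mk_eq_zero_iff.2 ⟨⟨q, fun a ha => funext fun z => ?_⟩, Subtype.ext (funext fun z => by
        show p • q z = f.1 z
        rw [hq z, nsmul_eq_mul])⟩
      refine mul_left_cancel₀ (Int.natCast_ne_zero.2 (Fact.out : p.Prime).ne_zero) ?_
      rw [permΓ_apply, ← hq, ← hq]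
      exact congrFun (f.2 a ha) z
  have heq : ∀ (b : ↥B₀) (x : ModP p (fixM A₀ (permΓ Z))) (z : Z),
      r (modPRep (p := p) (fixAct B₀ A₀ (permΓ Z) hle) (QuotientGroup.mk b) x) z =
        r x ((b : Γ)⁻¹ • z) := fun b x z => by
    induction x using QuotientAddGroup.induction_on with
    | H f => rfl
  let F : ↥(eqHom π (modPRep (p := p) (fixAct B₀ A₀ (permΓ Z) hle))) →ₗ[ZMod p] ↥(permHom Z π) :=
    { toFun := fun φ => ⟨r ∘ₗ φ.1, fun b v z => by
        show r (φ.1 (π (QuotientGroup.mk b) v)) z = r (φ.1 v) _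
        rw [φ.2, heq]⟩
      map_add' := fun a b => Subtype.ext (LinearMap.comp_add _ _ r)
      map_smul' := fun c a => Subtype.ext (LinearMap.comp_smul r c a.1) }
  refine (LinearEquiv.ofBijective F ⟨?_, ?_⟩).finrank_eq
  · intro a b h
    exact Subtype.ext (LinearMap.ext fun v =>
      hr (LinearMap.congr_fun (congrArg Subtype.val h) v))
  · intro φ
    have hmem : ∀ v, φ.1 v ∈ LinearMap.range r := fun v => by
      refine ⟨QuotientAddGroup.mk ⟨fun z => ((φ.1 v z).val : ℤ), fun a ha => funext fun z => ?_⟩,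
        funext fun z => by simp [r, redP_mk]⟩
      rw [permΓ_apply, permHom_fixed Z π hle φ.2 ha]
    let ψ := (LinearEquiv.ofInjective r hr).symm.toLinearMap ∘ₗ φ.1.codRestrict _ hmem
    have hψ : ∀ v, r (ψ v) = φ.1 v := fun v => congrArg Subtype.val
      ((LinearEquiv.ofInjective r hr).apply_symm_apply (φ.1.codRestrict _ hmem v))
    refine ⟨⟨ψ, fun q v => hr (funext fun z => ?_)⟩, Subtype.ext (LinearMap.ext hψ)⟩
    obtain ⟨b, rfl⟩ := QuotientGroup.mk_surjective q
    rw [hψ, heq, hψ]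
    exact φ.2 b v z

end Perm

/-! ### The count -/

variable {S₁ : Finset Nat.Primes} (F : SField p S₁)

theorem pr_eq_one_iff {σ : GG} : pr F σ = 1 ↔ σ ∈ F.N := QuotientGroup.eq_one_iff σ

theorem om_congr {σ τ : GG} (h : pr F σ = pr F τ) : om p σ = om p τ := by
  have h1 : om p (σ⁻¹ * τ) = 1 := F.zeta _ (QuotientGroup.eq.1 h)
  have hm : om p (σ * (σ⁻¹ * τ)) = om p σ * om p (σ⁻¹ * τ) := by
    rw [om, om, om, map_mul, Units.val_mul]
  rw [mul_inv_cancel_left, h1, mul_one] at hm
  exact hm.symm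

variable {S : Finset ℕ}

/-- The root of unity as a unit. -/
def zetaUnit (F : SField p S₁) (S : Finset ℕ) : UnitMod F S :=
  Additive.ofMul ⟨Units.mk0 (zeta p) (Field.zeta_ne p),
    fun σ hσ => by
      show σ (zeta p) = zeta p
      exact (Field.fixZ_iff p).2 F.zeta σ ((pr_eq_one_iff F).1 hσ),
    fun l hl _ V hV => by
      have h : V.valuation (zeta p) ^ p = 1 := by
        rw [← map_pow, (zeta_spec p).pow_eq_one, map_one]
      exact (pow_eq_one_iff.1 h).resolve_right (Fact.out : p.Prime).ne_zero⟩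

theorem val_zetaUnit : val F (zetaUnit F S) = zeta p := rfl

theorem zetaUnit_nsmul : p • zetaUnit F S = 0 := by
  apply val_injective F
  rw [val_nsmul, val_zetaUnit, (zeta_spec p).pow_eq_one, val_zero]

theorem zetaUnit_ne : zetaUnit F S ≠ 0 := fun h => by
  have := congrArg (val F) h
  rw [val_zetaUnit, val_zero] at this
  exact (zeta_spec p).ne_one (Fact.out : p.Prime).one_lt this

theorem actU_zetaUnit (g : F.Γ) :
    actU F S g (zetaUnit F S) = (om p (lift F g)).val • zetaUnit F S := by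
  apply val_injective F
  rw [val_nsmul, show actU F S g (zetaUnit F S) = actU F S (pr F (lift F g)) (zetaUnit F S) by
    rw [rb_lift], val_actU, val_zetaUnit]
  exact apply_zeta _

variable {C : CC} {V : ℕ → ValuationSubring LL} (B₀ A₀ : Subgroup F.Γ)
  [(A₀.subgroupOf B₀).Normal] (hle : A₀ ≤ B₀)
  {P : Type} [AddCommGroup P] [Module (ZMod p) P] [Module.Finite (ZMod p) P]
  (π : Representation (ZMod p) (↥B₀ ⧸ A₀.subgroupOf B₀) P)

/-- The weight of the cyclotomic line on the quotient. -/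
def omQ (q : ↥B₀ ⧸ A₀.subgroupOf B₀) : ZMod p := om p (lift F ((q.out : ↥B₀) : F.Γ))

theorem omQ_mk (hA : ∀ a ∈ A₀, om p (lift F a) = 1) (b : ↥B₀) :
    omQ F B₀ A₀ (QuotientGroup.mk b) = om p (lift F (b : F.Γ)) := by
  obtain ⟨⟨a, ha⟩, he⟩ := QuotientGroup.mk_out_eq_mul (A₀.subgroupOf B₀) b
  rw [omQ, he, Subgroup.coe_mul,
    om_congr F (σ := lift F ((b : F.Γ) * (a : F.Γ))) (τ := lift F (b : F.Γ) * lift F (a : F.Γ))
      (by rw [map_mul, rb_lift, rb_lift, rb_lift])]
  have h1 : om p (lift F (a : F.Γ)) = 1 := hA _ ha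
  have hm : om p (lift F (b : F.Γ) * lift F (a : F.Γ)) =
      om p (lift F (b : F.Γ)) * om p (lift F (a : F.Γ)) := by simp [om, map_mul]
  rw [hm, h1, mul_one]

/-- The exact count. -/
theorem count [Fintype F.Γ] [Fintype (↥B₀ ⧸ A₀.subgroupOf B₀)] [AddGroup.FG (UnitMod F S)]
    [Fintype (Pl F (cbar F C) S V)] (hA : ∀ a ∈ A₀, om p (lift F a) = 1)
    (e : P →ₗ[ZMod p] P) (he : ∀ x, ∑ g, π g (e (π g⁻¹ x)) = x)
    (dd : DirichletData F (cbar F C) S V) :
    Module.finrank (ZMod p) ↥(eqHom π (modPRep (p := p) (fixAct B₀ A₀ (actU F S) hle))) +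
        Module.finrank (ZMod p) ↥(linHom π fun _ => 1) =
      Module.finrank (ZMod p) ↥(permHom (Pl F (cbar F C) S V) π) +
        Module.finrank (ZMod p) ↥(linHom π (omQ F B₀ A₀)) := by
  classical
  haveI : Module.Finite ℤ (UnitMod F S) := Module.Finite.iff_addGroup_fg.2 inferInstance
  set MU := fixM A₀ (actU F S)
  set MX := fixM A₀ (permΓ (Pl F (cbar F C) S V))
  haveI : Module.Finite ℤ MU := finite_subgroup _
  haveI : Module.Finite ℤ MX := finite_subgroup _
  haveI : Module.Finite ℤ (MU ⧸ AddCommGroup.torsion MU) := Module.Finite.of_surjective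
    (QuotientAddGroup.mk' (AddCommGroup.torsion MU)).toIntLinearMap
    (QuotientAddGroup.mk'_surjective _)
  rw [← fullProbe_dim π e he, ← finrank_eqHom_permΓ (Pl F (cbar F C) S V) π hle,
    ← fullProbe_dim π e he]
  let E := fullProbe π e he
  -- the units
  obtain ⟨K, hK, hKd⟩ := E.dim_of_cofinite_iff (fixAct B₀ A₀ (actU F S) hle)
    (actFree (fixAct B₀ A₀ (actU F S) hle)) (QuotientAddGroup.mk' (AddCommGroup.torsion MU))
    (fun g x => rfl) (fun m => by
      obtain ⟨y, rfl⟩ := QuotientAddGroup.mk'_surjective _ m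
      exact ⟨1, one_ne_zero, y, by rw [one_smul]⟩)
  haveI : Module.Finite ℤ (AddCommGroup.torsion MU) := finite_subgroup _
  haveI : AddGroup.FG (AddCommGroup.torsion MU) := Module.Finite.iff_addGroup_fg.1 inferInstance
  haveI : Finite (AddCommGroup.torsion MU) :=
    AddCommGroup.finite_of_fg_isAddTorsion _ fun x => AddSubmonoid.isOfFinAddOrder_coe.1 x.2
  haveI : IsCyclic (Multiplicative (AddCommGroup.torsion MU)) :=
    isCyclic_of_injective_ringHom (R := LL)
      { toFun := fun x => val F (Multiplicative.toAdd x).1.1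
        map_one' := val_zero F S
        map_mul' := fun a b => val_add F _ _ }
      fun a b h => Multiplicative.toAdd.injective (Subtype.ext (Subtype.ext (val_injective F h)))
  obtain ⟨t, ht⟩ := IsCyclic.exists_generator (α := Multiplicative (AddCommGroup.torsion MU))
  have hgen : ∀ x : MU, IsOfFinAddOrder x → ∃ k : ℤ, k • (Multiplicative.toAdd t).1 = x :=
    fun x hx => by
      obtain ⟨k, hk⟩ := Subgroup.mem_zpowers_iff.1
        (ht (Multiplicative.ofAdd (⟨x, hx⟩ : AddCommGroup.torsion MU)))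
      exact ⟨k, congrArg Subtype.val (congrArg Multiplicative.toAdd hk)⟩
  set t₀ : MU := (Multiplicative.toAdd t).1 with ht₀
  have ht₀fin : IsOfFinAddOrder t₀ := (Multiplicative.toAdd t).2
  let z₀ : MU := ⟨zetaUnit F S, fun a ha => by
    rw [actU_zetaUnit, hA a ha, ZMod.val_one, one_smul]⟩
  have hz₀ : p • z₀ = 0 := Subtype.ext (zetaUnit_nsmul F)
  have hz₀fin : IsOfFinAddOrder z₀ :=
    isOfFinAddOrder_iff_nsmul_eq_zero.2 ⟨p, (Fact.out : p.Prime).pos, hz₀⟩
  obtain ⟨k, hk⟩ := hgen z₀ hz₀fin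
  have hz0ne : ∀ m : ℤ, (m : ZMod p) ≠ 0 → m • z₀ ≠ 0 := fun m hm h => by
    have hord : addOrderOf z₀ = p := addOrderOf_eq_prime hz₀ fun e =>
      zetaUnit_ne F (congrArg Subtype.val e)
    have := addOrderOf_dvd_iff_zsmul_eq_zero.2 h
    rw [hord] at this
    exact hm ((ZMod.intCast_zmod_eq_zero_iff_dvd _ _).2 this)
  set v₀ : ModP p MU := QuotientAddGroup.mk t₀
  have hv₀ : v₀ ≠ 0 := fun h => by
    obtain ⟨y, hy⟩ := mk_eq_zero_iff.1 h
    have hyfin : IsOfFinAddOrder y := by
      obtain ⟨n, hn, hn'⟩ := isOfFinAddOrder_iff_nsmul_eq_zero.1 ht₀fin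
      exact isOfFinAddOrder_iff_nsmul_eq_zero.2 ⟨n * p, Nat.mul_pos hn (Fact.out : p.Prime).pos,
        by rw [mul_nsmul', hy, hn']⟩
    obtain ⟨m, hm⟩ := hgen y hyfin
    refine hz0ne ((p : ℤ) * m - 1) (by simp) ?_
    have e1 : ((p : ℤ) * m - 1) • t₀ = 0 := by
      rw [sub_smul, one_smul, mul_smul, natCast_zsmul, hm, hy, sub_self]
    rw [← hk, smul_comm, e1, smul_zero]
  have hKspan : K = Submodule.span (ZMod p) {v₀} := by
    refine le_antisymm (fun v hv => ?_) ((Submodule.span_singleton_le_iff_mem _ _).2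
      ((hK v₀).2 ⟨t₀, (QuotientAddGroup.eq_zero_iff _).2 ht₀fin, rfl⟩))
    obtain ⟨x, hx, rfl⟩ := (hK v).1 hv
    obtain ⟨m, rfl⟩ := hgen x ((QuotientAddGroup.eq_zero_iff _).1 hx)
    rw [QuotientAddGroup.mk_zsmul, ← Int.cast_smul_eq_zsmul (ZMod p)]
    exact Submodule.smul_mem _ _ (Submodule.mem_span_singleton_self _)
  have hact : ∀ q, modPRep (p := p) (fixAct B₀ A₀ (actU F S) hle) q v₀ =
      omQ F B₀ A₀ q • v₀ := fun q => by
    obtain ⟨a, ha⟩ := hgen (fixAct B₀ A₀ (actU F S) hle q t₀)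
      ((fixAct B₀ A₀ (actU F S) hle q : MU →+ MU).isOfFinAddOrder ht₀fin)
    have e1 : (fixAct B₀ A₀ (actU F S) hle q) z₀ = (omQ F B₀ A₀ q).val • z₀ := Subtype.ext (by
      rw [fixAct_apply]
      exact actU_zetaUnit F _)
    have e2 : a • z₀ = ((omQ F B₀ A₀ q).val : ℤ) • z₀ := by
      rw [natCast_zsmul, ← e1, ← hk, map_zsmul, ← ha, smul_comm]
    have e3 : (a : ZMod p) = omQ F B₀ A₀ q := by
      by_contra hne
      exact hz0ne (a - ((omQ F B₀ A₀ q).val : ℤ))
        (by rw [Int.cast_sub, Int.cast_natCast, ZMod.natCast_zmod_val]; exact sub_ne_zero.2 hne)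
        (by rw [sub_smul, e2, sub_self])
    rw [modPRep_mk, ← ha, QuotientAddGroup.mk_zsmul, ← Int.cast_smul_eq_zsmul (ZMod p), e3]
  -- the places
  let φ₀ : MX →+ MU := (dd.Φ.comp MX.subtype).codRestrict MU fun f a ha => by
    show actU F S a (dd.Φ f.1) = dd.Φ f.1
    rw [← dd.equivariant]
    exact congrArg dd.Φ (f.2 a ha)
  obtain ⟨K', hK', hKd'⟩ := E.dim_of_cofinite_iff (fixAct B₀ A₀ (permΓ _) hle)
    (actFree (fixAct B₀ A₀ (actU F S) hle))
    ((QuotientAddGroup.mk' (AddCommGroup.torsion MU)).comp φ₀)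
    (fun q f => congrArg QuotientAddGroup.mk (Subtype.ext (by
      show dd.Φ (fixAct B₀ A₀ (permΓ _) hle q f).1 = _
      rw [fixAct_apply]
      exact (dd.equivariant _ _).trans (fixAct_apply B₀ A₀ (actU F S) hle q (φ₀ f)).symm)))
    (fun m => by
      obtain ⟨y, rfl⟩ := QuotientAddGroup.mk_surjective m
      obtain ⟨n, hn, f, hf⟩ := dd.exists_nsmul y.1
      let g : Pl F (cbar F C) S V → ℤ := ∑ a : ↥A₀, permΓ _ (a : F.Γ) f
      have hg : g ∈ MX := fun b hb => by
        simp only [g, map_sum]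
        refine Fintype.sum_equiv (Equiv.mulLeft (⟨b, hb⟩ : ↥A₀)) _ _ fun a => ?_
        rw [Equiv.coe_mulLeft, Subgroup.coe_mul, map_mul]
        rfl
      refine ⟨Fintype.card ↥A₀ * n, mul_ne_zero Fintype.card_pos.ne' hn, ⟨g, hg⟩, ?_⟩
      show QuotientAddGroup.mk (φ₀ ⟨g, hg⟩) = _
      rw [← QuotientAddGroup.mk_nsmul]
      refine congrArg QuotientAddGroup.mk (Subtype.ext ?_)
      show dd.Φ g = ((Fintype.card ↥A₀ * n) • y).1
      have hterm : ∀ a : ↥A₀, dd.Φ (permΓ _ (a : F.Γ) f) = n • (y : UnitMod F S) := fun a => by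
        rw [show dd.Φ (permΓ _ (a : F.Γ) f) = actU F S a (dd.Φ f) from
          dd.equivariant (a : F.Γ) f, hf, map_nsmul, y.2 a a.2]
      simp only [g, map_sum, Finset.sum_congr rfl fun a _ => hterm a, Finset.sum_const,
        Finset.card_univ, ← mul_nsmul']
      rfl)
  let onesInf : MX := ⟨Sum.elim (fun _ => 1) (fun _ => 0), fun a _ => funext fun z => by
    cases z <;> rfl⟩
  set v₁ : ModP p MX := QuotientAddGroup.mk onesInf
  have hv₁ : v₁ ≠ 0 := fun h => by
    obtain ⟨y, hy⟩ := mk_eq_zero_iff.1 h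
    have h1 := congrFun (congrArg Subtype.val hy) (Sum.inl (QuotientGroup.mk 1))
    change p • y.1 (Sum.inl (QuotientGroup.mk 1)) = (1 : ℤ) at h1
    have h2 := congrArg (Int.cast : ℤ → ZMod p) h1
    simp at h2
  have hK'span : K' = Submodule.span (ZMod p) {v₁} := by
    have hker : ∀ x : MX, ((QuotientAddGroup.mk' (AddCommGroup.torsion MU)).comp φ₀) x = 0 ↔
        ∃ a : ℤ, x.1 = Sum.elim (fun _ => a) (fun _ => 0) := fun x => by
      show (QuotientAddGroup.mk (φ₀ x) : MU ⧸ AddCommGroup.torsion MU) = 0 ↔ _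
      rw [QuotientAddGroup.eq_zero_iff, ← dd.torsion_iff x.1]
      show IsOfFinAddOrder (φ₀ x) ↔ IsOfFinAddOrder (MU.subtype (φ₀ x))
      exact AddSubmonoid.isOfFinAddOrder_coe.symm
    refine le_antisymm (fun v hv => ?_) ((Submodule.span_singleton_le_iff_mem _ _).2
      ((hK' v₁).2 ⟨onesInf, (hker _).2 ⟨1, rfl⟩, rfl⟩))
    obtain ⟨x, hx, rfl⟩ := (hK' v).1 hv
    obtain ⟨a, ha⟩ := (hker x).1 hx
    have : x = a • onesInf := Subtype.ext (by
      rw [ha]
      funext z
      cases z <;> simp [onesInf])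
    rw [this, QuotientAddGroup.mk_zsmul, ← Int.cast_smul_eq_zsmul (ZMod p)]
    exact Submodule.smul_mem _ _ (Submodule.mem_span_singleton_self _)
  have hact' : ∀ q, modPRep (p := p) (fixAct B₀ A₀ (permΓ (Pl F (cbar F C) S V)) hle) q v₁ =
      (fun _ => (1 : ZMod p)) q • v₁ := fun q => by
    rw [one_smul, modPRep_mk]
    refine congrArg QuotientAddGroup.mk (Subtype.ext (funext fun z => ?_))
    rw [fixAct_apply]
    cases z <;> rfl
  rw [hKd, hKd', hKspan, hK'span, dimIn_line π e he _ hv₀ _ hact,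
    dimIn_line π e he _ hv₁ _ hact']
  omega

end FLTAgent.TWPrimes.Units
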