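import Fermat.Agent.TWPrimes.Units.LE

/-!
# The lower bound for the classes of a module induced from a line

Equivariant characters of the smaller group of a layer are transferred to cocycles of the whole
group, and the vectors fixed by decomposition groups give functions on the places.
-/

set_option autoImplicit false
set_option linter.style.haveILetI false
set_option linter.unusedSectionVars false
set_option maxHeartbeats 1000000

noncomputable section

open scoped Pointwise

namespace FLTAgent.TWPrimes.Units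

open FLTAgent.PoitouTate
open FLTAgent.Lowering.P1.UnitBound (eqHom modPRep)
open FLTAgent.Lowering.P1.UnitBound renaming ModP → MP

local notation "LL" => AlgebraicClosure ℚ
local notation "GG" => (AlgebraicClosure ℚ ≃ₐ[ℚ] AlgebraicClosure ℚ)
local notation "VS" => ValuationSubring (AlgebraicClosure ℚ)
local notation "Dec" => ValuationSubring.decompositionSubgroup ℚ
local notation "pP" => ExtCitation.pPrime

variable {p : ℕ} [Fact p.Prime] {S₁ : Finset Nat.Primes} {F : SField p S₁}

/-! ### The representatives -/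

/-- The orbit of a place. -/
def plIdx (C : CC) (S : Finset Nat.Primes) (V : Nat.Primes → VS) :
    Pl F (cbar F C) (Sn S) (Vn V) → Option ↥S
  | Sum.inl _ => none
  | Sum.inr x => some ⟨⟨x.1.1, prime_of_mem_Sn x.1.2⟩, by
      obtain ⟨q, hq, e⟩ := mem_Sn.1 x.1.2
      have : q = (⟨x.1.1, prime_of_mem_Sn x.1.2⟩ : Nat.Primes) := Subtype.ext e
      rwa [this] at hq⟩

theorem plIdx_smul (C : CC) (S : Finset Nat.Primes) (V : Nat.Primes → VS) (g : F.Γ)
    (x : Pl F (cbar F C) (Sn S) (Vn V)) : plIdx C S V (g • x) = plIdx C S V x := by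
  rcases x with _ | ⟨_, _⟩ <;> rfl

theorem plIdx_rep (C : CC) (S : Finset Nat.Primes) (V : Nat.Primes → VS) (i : Option ↥S) :
    plIdx C S V (plRep (F := F) C S V i) = i := by
  cases i <;> rfl

theorem exists_smul_rep (C : CC) (S : Finset Nat.Primes) (V : Nat.Primes → VS)
    (x : Pl F (cbar F C) (Sn S) (Vn V)) :
    ∃ g : F.Γ, g • plRep (F := F) C S V (plIdx C S V x) = x := by
  obtain ⟨i, g, h⟩ := exists_plRep C S V x
  refine ⟨g, ?_⟩
  rw [← h, plIdx_smul, plIdx_rep]

theorem repGrp_stab (C : CC) (S : Finset Nat.Primes) (V : Nat.Primes → VS) (i : Option ↥S)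
    {g : F.Γ} (hg : g • plRep (F := F) C S V i = plRep C S V i) :
    ∃ h ∈ repGrp C S V i, pr F h = g := by
  cases i with
  | none =>
    have h1 : (QuotientGroup.mk (g * 1) : InfPl F (cbar F C)) = QuotientGroup.mk 1 :=
      Sum.inl_injective hg
    have h2 := QuotientGroup.eq.1 h1
    rw [mul_one, mul_one] at h2
    have h3 := inv_mem h2
    rw [inv_inv, cbar, ← MonoidHom.map_zpowers] at h3
    exact h3
  | some q =>
    have h1 : (⟨_, QuotientGroup.mk (g * 1)⟩ : FinPl F (Sn S) (Vn V)) = ⟨_, QuotientGroup.mk 1⟩ :=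
      Sum.inr_injective hg
    have h2 := QuotientGroup.eq.1 (eq_of_heq (Sigma.mk.inj_iff.1 h1).2)
    rw [mul_one, mul_one] at h2
    obtain ⟨h, hh, e⟩ := inv_mem h2
    refine ⟨h, ?_, e.trans (inv_inv g)⟩
    show h ∈ Dec (V q.1)
    have hh' : h ∈ Dec (Vn V (q.1 : ℕ)) := hh
    rwa [Vn_coe] at hh'

variable {A A' : Type} [AddCommGroup A] [Module (ZMod p) A] [AddCommGroup A'] [Module (ZMod p) A']
  {ρ : Representation (ZMod p) GG A} {ρ' : Representation (ZMod p) GG A'}

theorem kumField_conj {T : Finset ℕ} {s : GG} (hs : s ∈ (kumField F T).fixingSubgroup) (g : GG)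
    (a : UnitMod F T) : kapU a (g⁻¹ * s * g) = 0 := by
  have h := kapU_conj g⁻¹ (good_of_N (actU F T (pr F g) a) (kumField_N hs))
  rw [inv_inv, kumField_kap hs, mul_zero] at h
  have e : actU F T (pr F g⁻¹) (actU F T (pr F g) a) = a := by
    show (actU F T (pr F g⁻¹) * actU F T (pr F g)) a = a
    rw [← map_mul, ← map_mul, inv_mul_cancel, map_one, map_one]
    rfl
  rwa [e] at h

theorem coboundary_mem {S : Finset Nat.Primes} (hρ : F.Triv ρ) (hS : S₁ ⊆ S) {b : GG → A}
    (hb : b ∈ B1 ρ (MonoidHom.id GG)) : b ∈ Z1S ρ (MonoidHom.id GG) S := by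
  haveI := F.fd
  obtain ⟨a, rfl⟩ := hb
  have hlev : ∀ g s : GG, (MonoidHom.id GG) s ∈ F.K.fixingSubgroup →
      d0 ρ (MonoidHom.id GG) a (g * s) = d0 ρ (MonoidHom.id GG) a g := fun g s hs => by
    rw [d0_apply, d0_apply, MonoidHom.id_apply, MonoidHom.id_apply, map_mul,
      Module.End.mul_apply, hρ s hs, LinearMap.id_apply]
  refine ⟨⟨⟨F.K, F.fd, hlev⟩, fun g h => ?_⟩, F.K, F.unram.mono hS, hlev⟩
  rw [d0_apply, d0_apply, d0_apply, MonoidHom.id_apply, MonoidHom.id_apply, MonoidHom.id_apply,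
    map_mul, Module.End.mul_apply, map_sub]
  abel

variable [FiniteDimensional (ZMod p) A] [FiniteDimensional (ZMod p) A']

/-! ### The bound -/

set_option maxHeartbeats 4000000 in
theorem eulerGE (P : DualPair ρ ρ') (hρ : F.Triv ρ) (hρ' : F.Triv ρ') (H Pn : Subgroup GG)
    [Fintype (GG ⧸ H)] (hNP : F.N ≤ Pn) (hPH : Pn ≤ H)
    (hconj : ∀ h ∈ H, ∀ u ∈ Pn, h * u * h⁻¹ ∈ Pn) (hidx : ¬ p ∣ Pn.relIndex H)
    (hom : ∀ u ∈ Pn, om p u = 1) (e : A →ₗ[ZMod p] A) (hee : e ∘ₗ e = e)
    (hcomm : ∀ h ∈ H, ρ h ∘ₗ e = e ∘ₗ ρ h) (htriv : ∀ u ∈ Pn, ρ u ∘ₗ e = e)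
    (hoff : ∀ g, g ∉ H → e ∘ₗ ρ g ∘ₗ e = 0)
    (hsum : (∑ x : GG ⧸ H, ρ x.out ∘ₗ e ∘ₗ ρ x.out⁻¹) = LinearMap.id) :
    EulerGE ρ ρ' := by
  classical
  letI : Fintype F.Γ := Fintype.ofFinite _
  haveI : F.N.FiniteIndex := Subgroup.finiteIndex_of_finite_quotient
  haveI : Pn.FiniteIndex := Subgroup.finiteIndex_of_le hNP
  letI : Fintype (GG ⧸ Pn) := Fintype.ofFinite _
  obtain ⟨S₀, hpS₀, hS₁, hB⟩ := exists_bound F
  refine ⟨S₀, hpS₀, fun S hS V hV c hc => ?_⟩
  obtain ⟨ι, hι⟩ := hc
  let C : CC := ⟨c, ι, hι⟩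
  have hfin := finite_Z1S hρ P (hB S hS)
  refine ⟨hfin, ?_⟩
  haveI := hfin
  have hSS : S₁ ⊆ S := hS₁.trans hS
  let Y : Lay F := ⟨H, Pn, hNP, hPH, hconj, hom⟩
  -- facts on the idempotents
  have hee' : ∀ a, e (e a) = e a := fun a => LinearMap.congr_fun hee a
  have hcomm' : ∀ h ∈ H, ∀ a, ρ h (e a) = e (ρ h a) := fun h hh a =>
    LinearMap.congr_fun (hcomm h hh) a
  have htriv' : ∀ u ∈ Pn, ∀ a, ρ u (e a) = e a := fun u hu a => LinearMap.congr_fun (htriv u hu) a
  have hoff' : ∀ g, g ∉ H → ∀ a, e (ρ g (e a)) = 0 := fun g hg a =>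
    LinearMap.congr_fun (hoff g hg) a
  have hsum' : ∀ a, ∑ x : GG ⧸ H, ρ x.out (e (ρ x.out⁻¹ a)) = a := fun a => by
    conv_rhs => rw [← LinearMap.id_apply (R := ZMod p) a, ← hsum, LinearMap.sum_apply]
    rfl
  obtain ⟨e', he'⟩ := exists_adj P e
  have fee : ∀ b, e' (e' b) = e' b := fun b => eq_of_pair P fun a => by
    rw [← he', ← he', ← he', hee']
  have fcomm : ∀ h ∈ H, ∀ b, e' (ρ' h b) = ρ' h (e' b) := fun h hh b => eq_of_pair P fun a => by
    have ea : ρ h (ρ h⁻¹ a) = a := ρ.self_inv_apply h a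
    rw [← he', ← ea, ← hcomm' h hh, P.equivariant, P.equivariant, he']
  have ftriv : ∀ u ∈ Pn, ∀ b, ρ' u (e' b) = e' b := fun u hu b => eq_of_pair P fun a => by
    rw [← fcomm u (hPH hu), ← he', ← htriv' u hu, P.equivariant, hom u hu, one_mul, ← he']
  have foff : ∀ g, g ∉ H → ∀ b, e' (ρ' g (e' b)) = 0 := fun g hg b => eq_of_pair P fun a => by
    have ea : ρ g (ρ g⁻¹ (e a)) = e a := ρ.self_inv_apply g (e a)
    rw [← he', ← ea, P.equivariant, ← he', hoff' g⁻¹ (fun hh => hg (inv_inv g ▸ inv_mem hh)),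
      map_zero, LinearMap.zero_apply, mul_zero, map_zero]
  have fsum : ∀ b, ∑ x : GG ⧸ H, ρ' x.out (e' (ρ' x.out⁻¹ b)) = b := fun b => eq_of_pair P fun a => by
    rw [map_sum]
    conv_rhs => rw [← hsum' a, map_sum, LinearMap.sum_apply]
    exact Finset.sum_congr rfl fun x _ => (adj_conj P he' x.out a b).symm
  -- the module of the layer
  set M := LinearMap.range e' with hM
  let ec : A' →ₗ[ZMod p] M := e'.rangeRestrict
  have hec : ∀ b, (ec b : A') = e' b := fun b => rfl
  have hMfix : ∀ v : M, e' (v : A') = v := fun v => by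
    obtain ⟨b, hb⟩ := v.2
    rw [← hb, fee]
  have hecM : ∀ v : M, ec (v : A') = v := fun v => Subtype.ext (hMfix v)
  let α : ↥Y.H →* Module.End (ZMod p) M :=
    { toFun := fun h => (ρ' (h : GG)).restrict fun v hv => by
        obtain ⟨b, rfl⟩ := hv
        exact ⟨ρ' (h : GG) b, fcomm _ h.2 b⟩
      map_one' := LinearMap.ext fun v => Subtype.ext (by
        show ρ' ((1 : ↥Y.H) : GG) (v : A') = v
        rw [OneMemClass.coe_one, map_one]; rfl)
      map_mul' := fun g h => LinearMap.ext fun v => Subtype.ext (by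
        show ρ' ((g * h : ↥Y.H) : GG) (v : A') = _
        rw [Subgroup.coe_mul, map_mul]; rfl) }
  let π := Y.desc α fun u hu => LinearMap.ext fun v => Subtype.ext (by
    show ρ' (u : GG) (v : A') = v
    rw [← hMfix v, ftriv _ hu])
  have hπ : ∀ (h : ↥Y.H) (v : M), (π (Y.toQ h) v : A') = ρ' (h : GG) v := fun h v => by
    rw [Y.desc_toQ]
    rfl
  have hcardQ : ((Fintype.card Y.Q : ℕ) : ZMod p) ≠ 0 := by
    rw [← Nat.card_eq_fintype_card, Y.card_Q, ne_eq, CharP.cast_eq_zero_iff (ZMod p) p]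
    exact hidx
  let c₀ : ZMod p := ((Fintype.card Y.Q : ℕ) : ZMod p)⁻¹
  have hprobe : ∀ v : M, ∑ q, π q ((c₀ • LinearMap.id : M →ₗ[ZMod p] M) (π q⁻¹ v)) = v :=
    fun v => by
    refine (Finset.sum_congr rfl fun q _ => (?_ : _ = c₀ • v)).trans ?_
    · rw [LinearMap.smul_apply, LinearMap.id_apply, map_smul, Representation.self_inv_apply]
    · rw [Finset.sum_const, Finset.card_univ, ← Nat.cast_smul_eq_nsmul (ZMod p), smul_smul,
        mul_inv_cancel₀ hcardQ, one_smul]
  -- the characters of the smaller group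
  set T := Sn S with hT
  set mU := modPRep (p := p) (fixAct Y.B₀ Y.A₀ (actU F T) Y.hle) with hmU
  let f : ↥(eqHom π mU) →ₗ[ZMod p] (↥Y.Pn → A) :=
    { toFun := fun φ σ => (toDual P).symm
        ((LinearMap.proj σ : (↥Y.Pn → ZMod p) →ₗ[ZMod p] ZMod p) ∘ₗ Y.kapQ ∘ₗ φ.1 ∘ₗ ec)
      map_add' := fun φ ψ => funext fun σ => by
        rw [Pi.add_apply, ← map_add]
        exact congrArg _ (LinearMap.ext fun b => by simp)
      map_smul' := fun r φ => funext fun σ => by
        rw [RingHom.id_apply, Pi.smul_apply, ← map_smul]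
        exact congrArg _ (LinearMap.ext fun b => by simp) }
  have hf : ∀ φ σ b, P.e (f φ σ) b = Y.kapQ (φ.1 (ec b)) σ := fun φ σ b => toDual_symm_apply P _ b
  have hfe : ∀ φ σ, e (f φ σ) = f φ σ := fun φ σ => sub_eq_zero.1 (P.left _ fun b => by
    rw [map_sub, LinearMap.sub_apply, he', hf, hf, show ec (e' b) = ec b from Subtype.ext (fee b),
      sub_self])
  have hfmul : ∀ φ (σ τ : ↥Y.Pn), f φ (σ * τ) = f φ σ + f φ τ := fun φ σ τ =>
    sub_eq_zero.1 (P.left _ fun b => by
      rw [map_sub, LinearMap.sub_apply, map_add, LinearMap.add_apply, hf, hf, hf, Y.kapQ_mul,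
        sub_self])
  have hfconj : ∀ φ (h : GG) (hh : h ∈ H) (σ σ' : ↥Y.Pn), (σ' : GG) = h * σ * h⁻¹ →
      f φ σ' = ρ h (f φ σ) := fun φ h hh σ σ' eσ => sub_eq_zero.1 (P.left _ fun b => by
    rw [map_sub, LinearMap.sub_apply, hf, pair_inv P, hf,
      show ec b = π (Y.toQ ⟨h, hh⟩) (ec (ρ' h⁻¹ b)) from Subtype.ext (by
        rw [hπ, hec, hec, ← fcomm h hh, Representation.self_inv_apply]),
      φ.2, Y.kapQ_conj ⟨h, hh⟩ _ σ σ' eσ, sub_self])
  have hffix : ∀ φ σ (u : GG), u ∈ Pn → ρ u (f φ σ) = f φ σ := fun φ σ u hu => by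
    rw [← hfe, htriv' u hu]
  -- the transfer
  have hmem : ∀ (g : GG) (x : GG ⧸ Pn), ((g • x).out)⁻¹ * g * x.out ∈ Pn := fun g x => by
    rw [mul_assoc]
    refine QuotientGroup.eq.1 ?_
    rw [QuotientGroup.out_eq']
    conv_lhs => rw [← QuotientGroup.out_eq' x]
    rfl
  let Cf : ↥(eqHom π mU) →ₗ[ZMod p] (GG → A) :=
    { toFun := fun φ g => c₀ • ∑ x : GG ⧸ Pn, ρ (g • x).out (f φ ⟨_, hmem g x⟩)
      map_add' := fun φ ψ => funext fun g => by
        simp only [map_add, Pi.add_apply, Finset.sum_add_distrib, smul_add]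
      map_smul' := fun r φ => funext fun g => by
        simp only [map_smul, Pi.smul_apply, RingHom.id_apply, ← Finset.smul_sum]
        rw [smul_comm] }
  have hcoc : ∀ φ g k, Cf φ (g * k) = Cf φ g + ρ g (Cf φ k) := fun φ g k => by
    show c₀ • _ = c₀ • _ + ρ g (c₀ • _)
    rw [map_smul, ← smul_add, map_sum,
      ← Equiv.sum_comp (MulAction.toPerm k) (fun x : GG ⧸ Pn => ρ (g • x).out (f φ ⟨_, hmem g x⟩)),
      ← Finset.sum_add_distrib]
    refine congrArg _ (Finset.sum_congr rfl fun x _ => ?_)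
    simp only [MulAction.toPerm_apply]
    have ew : (⟨_, hmem (g * k) x⟩ : ↥Y.Pn) = ⟨_, hmem g (k • x)⟩ * ⟨_, hmem k x⟩ :=
      Subtype.ext (by
        show ((g * k) • x).out⁻¹ * (g * k) * x.out =
          (g • k • x).out⁻¹ * g * (k • x).out * ((k • x).out⁻¹ * k * x.out)
        rw [mul_smul]
        group)
    rw [ew, hfmul, map_add, mul_smul, ← Module.End.mul_apply (ρ g), ← map_mul]
    congr 1
    conv_rhs => rw [show g * (k • x).out =
      (g • k • x).out * ((g • k • x).out⁻¹ * g * (k • x).out) by group, map_mul,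
      Module.End.mul_apply, hffix φ _ _ (hmem g (k • x))]
  have hCfix : ∀ φ (s : GG), s ∈ (kumField F T).fixingSubgroup → Cf φ s = 0 := fun φ s hs => by
    have hsN := kumField_N hs
    show c₀ • (∑ x : GG ⧸ Pn, ρ (s • x).out (f φ ⟨_, hmem s x⟩)) = 0
    rw [Finset.sum_eq_zero, smul_zero]
    intro x _
    have hx : s • x = x := by
      conv_lhs => rw [← QuotientGroup.out_eq' x]
      conv_rhs => rw [← QuotientGroup.out_eq' x]
      refine QuotientGroup.eq.2 (hNP ?_)
      have := F.instNormal.conj_mem _ (inv_mem hsN) x.out⁻¹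
      rw [inv_inv] at this
      show (s * x.out)⁻¹ * x.out ∈ F.N
      rw [mul_inv_rev]
      exact this
    rw [show f φ ⟨_, hmem s x⟩ = 0 from P.left _ fun b => ?_, map_zero]
    rw [hf]
    have key : ∀ v : MP p (fixM Y.A₀ (actU F T)), Y.kapQ v ⟨_, hmem s x⟩ = 0 := fun v => by
      induction v using QuotientAddGroup.induction_on with
      | H a =>
        rw [Y.kapQ_mk]
        show kapU (a : UnitMod F T) ((s • x).out⁻¹ * s * x.out) = 0
        rw [hx]
        exact kumField_conj hs _ _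
    exact key _
  have hCmem : ∀ φ, Cf φ ∈ Z1S ρ (MonoidHom.id GG) S := fun φ => by
    have hlev : ∀ g s : GG, (MonoidHom.id GG) s ∈ (kumField F T).fixingSubgroup →
        Cf φ (g * s) = Cf φ g := fun g s hs => by
      rw [hcoc, hCfix φ s hs, map_zero, add_zero]
    exact ⟨⟨⟨kumField F T, (kumField_unram (hS hpS₀) hSS).1, hlev⟩, fun g h => hcoc φ g h⟩,
      kumField F T, kumField_unram (hS hpS₀) hSS, hlev⟩
  have hcount : ((Finset.univ.filter fun x : GG ⧸ Pn => x.out ∈ H).card : ZMod p) =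
      (Fintype.card Y.Q : ZMod p) := by
    rw [← Fintype.card_subtype]
    refine congrArg _ (Fintype.card_of_bijective
      (f := fun x : {x : GG ⧸ Pn // x.out ∈ H} => Y.toQ ⟨x.1.out, x.2⟩) ⟨fun x y h => ?_,
        fun q => ?_⟩)
    · have h1 : Y.toQ ((⟨x.1.out, x.2⟩ : ↥Y.H)⁻¹ * ⟨y.1.out, y.2⟩) = 1 := by
        rw [map_mul, map_inv, inv_mul_eq_one]
        exact h
      refine Subtype.ext ?_
      rw [← QuotientGroup.out_eq' x.1, ← QuotientGroup.out_eq' y.1]
      exact QuotientGroup.eq.2 (Y.toQ_eq_one.1 h1)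
    · obtain ⟨h, rfl⟩ := Y.toQ_surjective q
      have hu : (h : GG)⁻¹ * ((h : GG) : GG ⧸ Pn).out ∈ Pn :=
        QuotientGroup.eq.1 (QuotientGroup.out_eq' _).symm
      have hH : ((h : GG) : GG ⧸ Pn).out ∈ H := by
        have := mul_mem h.2 (hPH hu)
        rwa [mul_inv_cancel_left] at this
      refine ⟨⟨_, hH⟩, ?_⟩
      rw [← inv_mul_eq_one, ← map_inv, ← map_mul]
      refine Y.toQ_eq_one.2 ?_
      have := inv_mem hu
      rwa [mul_inv_rev, inv_inv] at this
  have hres : ∀ φ (u : ↥Y.Pn), e (Cf φ u) = f φ u := fun φ u => by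
    show e (c₀ • _) = _
    rw [map_smul, map_sum]
    have hterm : ∀ x : GG ⧸ Pn, e (ρ ((u : GG) • x).out (f φ ⟨_, hmem (u : GG) x⟩)) =
        if x.out ∈ H then f φ u else 0 := fun x => by
      have hw : ((u : GG) • x).out⁻¹ * (u : GG) * x.out ∈ Pn := hmem _ x
      split_ifs with hx
      · have hux : (u : GG) • x = x := by
          conv_lhs => rw [← QuotientGroup.out_eq' x]
          conv_rhs => rw [← QuotientGroup.out_eq' x]
          refine QuotientGroup.eq.2 ?_
          have := hconj _ (inv_mem hx) _ (inv_mem u.2)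
          rw [inv_inv] at this
          show ((u : GG) * x.out)⁻¹ * x.out ∈ Pn
          rw [mul_inv_rev]
          exact this
        rw [← hfconj φ ((u : GG) • x).out (by rwa [hux]) ⟨_, hw⟩ u (by
          show (u : GG) = ((u : GG) • x).out * (((u : GG) • x).out⁻¹ * (u : GG) * x.out) *
            ((u : GG) • x).out⁻¹
          rw [hux]
          group), hfe]
      · rw [← hfe φ ⟨_, hw⟩]
        refine hoff' _ (fun hh => hx ?_) _
        have := mul_mem (inv_mem (hPH u.2)) (mul_mem hh (hPH hw))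
        rwa [mul_assoc (((u : GG) • x).out)⁻¹, mul_inv_cancel_left, inv_mul_cancel_left] at this
    rw [Finset.sum_congr rfl fun x _ => hterm x, Finset.sum_ite, Finset.sum_const_zero, add_zero,
      Finset.sum_const, ← Nat.cast_smul_eq_nsmul (ZMod p), hcount, smul_smul,
      inv_mul_cancel₀ hcardQ, one_smul]
  -- classes
  have h1 : Module.finrank (ZMod p) ↥(eqHom π mU) +
      Module.finrank (ZMod p) ↥(B1 ρ (MonoidHom.id GG)) ≤
      Module.finrank (ZMod p) ↥(Z1S ρ (MonoidHom.id GG) S) := by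
    haveI : FiniteDimensional (ZMod p) ↥(B1 ρ (MonoidHom.id GG)) :=
      Module.Finite.range (d0 ρ (MonoidHom.id GG))
    rw [← Module.finrank_prod]
    let Ψ : ↥(eqHom π mU) × ↥(B1 ρ (MonoidHom.id GG)) →ₗ[ZMod p]
        ↥(Z1S ρ (MonoidHom.id GG) S) :=
      (LinearMap.coprod Cf (B1 ρ (MonoidHom.id GG)).subtype).codRestrict _ fun z =>
        add_mem (hCmem z.1) (coboundary_mem hρ hSS z.2.2)
    refine LinearMap.finrank_le_finrank_of_injective (f := Ψ) ?_
    refine LinearMap.ker_eq_bot.1 (LinearMap.ker_eq_bot'.2 fun z hz => ?_)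
    have h0 : ∀ g, Cf z.1 g + z.2.1 g = 0 := fun g => congrFun (congrArg Subtype.val hz) g
    obtain ⟨a, ha⟩ := z.2.2
    have hf0 : ∀ u : ↥Y.Pn, f z.1 u = 0 := fun u => by
      have h := congrArg e (h0 (u : GG))
      have hb : e (z.2.1 (u : GG)) = 0 := by
        rw [← ha, d0_apply, MonoidHom.id_apply, map_sub, ← hcomm' _ (hPH u.2), htriv' _ u.2,
          sub_self]
      rwa [map_add, map_zero, hres, hb, add_zero] at h
    have hz1 : z.1 = 0 := Subtype.ext (LinearMap.ext fun v => Y.kapQ_injective (funext fun u => by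
      have h := hf z.1 u (v : A')
      rw [hf0, hecM] at h
      rw [← h]
      simp))
    refine Prod.ext hz1 (Subtype.ext (funext fun g => ?_))
    have h := h0 g
    rw [hz1, map_zero, Pi.zero_apply, zero_add] at h
    exact h
  have h2 : Module.finrank (ZMod p) ↥(eqHom π mU) +
        Module.finrank (ZMod p) ↥(linHom π fun _ => 1) =
      Module.finrank (ZMod p) ↥(permHom (Pl F (cbar F C) (Sn S) (Vn V)) π) +
        Module.finrank (ZMod p) ↥(linHom π (omQ F Y.B₀ Y.A₀)) :=
    Y.count_eq π (c₀ • LinearMap.id) hprobe C (S := S) hV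
  -- the two lines
  have h3 : Module.finrank (ZMod p) ↥(inv ρ (⊤ : Subgroup GG)) ≤
      Module.finrank (ZMod p) ↥(linHom π (omQ F Y.B₀ Y.A₀)) := by
    let L : ↥(inv ρ (⊤ : Subgroup GG)) →ₗ[ZMod p] ↥(linHom π (omQ F Y.B₀ Y.A₀)) :=
      { toFun := fun a => ⟨(P.e a.1) ∘ₗ M.subtype, fun q v => by
          obtain ⟨h, rfl⟩ := Y.toQ_surjective q
          show P.e a.1 (π (Y.toQ h) v : A') = omQ F Y.B₀ Y.A₀ (Y.toQ h) * P.e a.1 (v : A')
          rw [hπ, Y.omQ_toQ]
          conv_lhs => rw [← (mem_inv_iff _).1 a.2 (h : GG) trivial]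
          exact P.equivariant _ _ _⟩
        map_add' := fun a b => Subtype.ext (LinearMap.ext fun v => by simp)
        map_smul' := fun r a => Subtype.ext (LinearMap.ext fun v => by simp) }
    refine LinearMap.finrank_le_finrank_of_injective (f := L)
      (LinearMap.ker_eq_bot.1 (LinearMap.ker_eq_bot'.2 fun a ha => Subtype.ext ?_))
    have hea : e a.1 = 0 := P.left _ fun b => by
      rw [he', ← hec]
      exact LinearMap.congr_fun (congrArg Subtype.val ha) (ec b)
    rw [← hsum' a.1]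
    refine Finset.sum_eq_zero fun x _ => ?_
    rw [(mem_inv_iff _).1 a.2 _ trivial, hea, map_zero]
  have h4 : Module.finrank (ZMod p) ↥(linHom π fun _ => 1) ≤
      Module.finrank (ZMod p) ↥(inv ρ' (⊤ : Subgroup GG)) := by
    rw [← invF_top_eq, finrank_invF π _ hprobe]
    have hfix : ∀ (v : ↥(invP π ⊤)) (h : GG), h ∈ H → ρ' h (v.1 : A') = v.1 := fun v h hh => by
      rw [← hπ ⟨h, hh⟩, v.2 _ trivial]
    let N : ↥(invP π ⊤) →ₗ[ZMod p] ↥(inv ρ' (⊤ : Subgroup GG)) :=
      LinearMap.codRestrict _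
        ((∑ x : GG ⧸ H, ρ' x.out) ∘ₗ M.subtype ∘ₗ (invP π ⊤).subtype) fun v => by
        refine (mem_inv_iff _).2 fun g _ => ?_
        simp only [LinearMap.comp_apply, LinearMap.sum_apply, Submodule.subtype_apply, map_sum]
        refine Fintype.sum_equiv (MulAction.toPerm g) _ _ fun x => ?_
        rw [MulAction.toPerm_apply, ← Module.End.mul_apply (ρ' g), ← map_mul,
          show g * x.out = (g • x).out * ((g • x).out⁻¹ * (g * x.out)) by group, map_mul,
          Module.End.mul_apply, hfix v _ (QuotientGroup.eq.1 (by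
            rw [QuotientGroup.out_eq']
            conv_lhs => rw [← QuotientGroup.out_eq' x]
            rfl))]
    refine LinearMap.finrank_le_finrank_of_injective (f := N)
      (LinearMap.ker_eq_bot.1 (LinearMap.ker_eq_bot'.2 fun v hv => Subtype.ext (Subtype.ext ?_)))
    have h0 : e' (∑ x : GG ⧸ H, ρ' x.out (v.1 : A')) = 0 := by
      have := congrArg Subtype.val hv
      simp only [N, LinearMap.codRestrict_apply, LinearMap.comp_apply, LinearMap.sum_apply,
        Submodule.subtype_apply] at this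
      rw [this]
      exact map_zero e'
    have hone : ((1 : GG) : GG ⧸ H).out ∈ H := by
      have h := QuotientGroup.eq.1 (QuotientGroup.out_eq' ((1 : GG) : GG ⧸ H)).symm
      rwa [inv_one, one_mul] at h
    rw [map_sum, Finset.sum_eq_single ((1 : GG) : GG ⧸ H) (fun x _ hx => ?_)
      (fun h => absurd (Finset.mem_univ _) h), fcomm _ hone, hMfix, hfix v _ hone] at h0
    · exact h0
    · rw [← hMfix v.1]
      refine foff _ (fun hh => hx ?_) _
      rw [← QuotientGroup.out_eq' x]
      exact QuotientGroup.eq.2 (by rw [mul_one]; exact inv_mem hh)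
  -- the places
  have h5 : locTerm ρ' S V c ≤
      Module.finrank (ZMod p) ↥(permHom (Pl F (cbar F C) (Sn S) (Vn V)) π) := by
    refine le_trans ?_ (finrank_eqFun_le π (c₀ • LinearMap.id) hprobe)
    haveI : ∀ i, Module.Free (ZMod p) ↥(inv ρ' (repGrp C S V i)) := fun i =>
      Module.Free.of_divisionRing _ _
    have hsumle : locTerm ρ' S V c = ∑ i : Option ↥S,
        Module.finrank (ZMod p) ↥(inv ρ' (repGrp C S V i)) := by
      rw [Fintype.sum_option, locTerm, add_comm]
      congr 1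
      exact (Finset.sum_coe_sort S fun q => Module.finrank (ZMod p) ↥(inv ρ' (Dec (V q)))).symm
    rw [hsumle, ← Module.finrank_pi_fintype (ZMod p)]
    choose gg hgg using exists_smul_rep (F := F) C S V
    have hwd : ∀ (i : Option ↥S) (g g' : F.Γ), g • plRep (F := F) C S V i = g' • plRep (F := F) C S V i →
        ∀ v ∈ inv ρ' (repGrp C S V i), ρ' (lift F g) v = ρ' (lift F g') v := by
      intro i g g' h v hv
      obtain ⟨k, hk, ek⟩ := repGrp_stab C S V i (g := g⁻¹ * g') (by
        rw [mul_smul, ← h, inv_smul_smul])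
      have hn : (lift F g * k)⁻¹ * lift F g' ∈ F.N := by
        rw [← pr_eq_one_iff F, map_mul, map_inv, map_mul, rb_lift, rb_lift, ek]
        group
      conv_rhs => rw [show lift F g' = lift F g * k * ((lift F g * k)⁻¹ * lift F g') by group,
        map_mul, Module.End.mul_apply, hρ' _ hn, LinearMap.id_apply, map_mul,
        Module.End.mul_apply, (mem_inv_iff _).1 hv k hk]
    have hwd' : ∀ (vs : (i : Option ↥S) → ↥(inv ρ' (repGrp C S V i))) (i j : Option ↥S)
        (g g' : F.Γ), i = j → g • plRep (F := F) C S V i = g' • plRep (F := F) C S V j →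
        ρ' (lift F g) (vs i).1 = ρ' (lift F g') (vs j).1 := by
      rintro vs i _ g g' rfl h
      exact hwd i g g' h _ (vs i).2
    let W : ((i : Option ↥S) → ↥(inv ρ' (repGrp C S V i))) →ₗ[ZMod p]
        ↥(eqFun π (Pl F (cbar F C) (Sn S) (Vn V))) :=
      { toFun := fun vs => ⟨fun x => ec (ρ' (lift F (gg x)) (vs (plIdx C S V x)).1), fun b z => by
          obtain ⟨h, hh, eh⟩ := b.2
          have hb : (QuotientGroup.mk b : Y.Q) = Y.toQ ⟨h, hh⟩ :=
            congrArg QuotientGroup.mk (Subtype.ext eh.symm)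
          refine Subtype.ext ?_
          rw [hb, hπ, hec, hec]
          show _ = ρ' h _
          rw [← fcomm h hh,
            hwd' vs (plIdx C S V ((b : F.Γ) • z)) (plIdx C S V z) (gg ((b : F.Γ) • z))
              ((b : F.Γ) * gg z) (plIdx_smul C S V _ z) (by rw [hgg, mul_smul, hgg])]
          refine congrArg e' ?_
          have hn : (h * lift F (gg z))⁻¹ * lift F ((b : F.Γ) * gg z) ∈ F.N := by
            rw [← pr_eq_one_iff F, map_mul, map_inv, map_mul, rb_lift, rb_lift, eh]
            group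
          rw [← Module.End.mul_apply (ρ' h), ← map_mul]
          conv_lhs => rw [show lift F ((b : F.Γ) * gg z) = h * lift F (gg z) *
            ((h * lift F (gg z))⁻¹ * lift F ((b : F.Γ) * gg z)) by group, map_mul,
            Module.End.mul_apply, hρ' _ hn, LinearMap.id_apply]⟩
        map_add' := fun a b => Subtype.ext (funext fun x => by simp)
        map_smul' := fun r a => Subtype.ext (funext fun x => by simp) }
    refine LinearMap.finrank_le_finrank_of_injective (f := W)
      (LinearMap.ker_eq_bot.1 (LinearMap.ker_eq_bot'.2 fun vs hvs => funext fun i =>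
        Subtype.ext ?_))
    have hz : ∀ σ : GG, e' (ρ' σ (vs i).1) = 0 := fun σ => by
      have h := congrArg Subtype.val (congrFun (congrArg Subtype.val hvs)
        (pr F σ • plRep (F := F) C S V i))
      change e' (ρ' (lift F (gg (pr F σ • plRep (F := F) C S V i)))
        (vs (plIdx C S V (pr F σ • plRep (F := F) C S V i))).1) = 0 at h
      rw [hwd' vs _ i _ (pr F σ) (by rw [plIdx_smul, plIdx_rep]) (hgg _)] at h
      have hn : σ⁻¹ * lift F (pr F σ) ∈ F.N := by
        rw [← pr_eq_one_iff F, map_mul, map_inv, rb_lift, inv_mul_cancel]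
      rwa [show lift F (pr F σ) = σ * (σ⁻¹ * lift F (pr F σ)) by group, map_mul,
        Module.End.mul_apply, hρ' _ hn, LinearMap.id_apply] at h
    rw [← fsum (vs i).1]
    exact Finset.sum_eq_zero fun x _ => by rw [hz, map_zero]
  have h6 := finrank_B1_add (ρ := ρ)
  omega

end FLTAgent.TWPrimes.Units
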