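import Fermat.Agent.TWPrimes.Units.Lay
import Fermat.Agent.Lowering.P1.UnitBound.Kummer

/-!
# Kummer characters of the units outside a set of primes

They are unramified outside the set, and every character of the group of the field with this
property is one of them.
-/

set_option autoImplicit false
set_option linter.style.haveILetI false
set_option linter.unusedSectionVars false
set_option maxHeartbeats 1000000

noncomputable section

open scoped Pointwise

namespace FLTAgent.TWPrimes.Units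

open FLTAgent.PoitouTate
open FLTAgent.Lowering.P1 (Brauer.LevOn)
open FLTAgent.Lowering.P1.UnitBound (Out exists_class_primes ordP eq_zero_of_valuation_sub_lt
  mk_eq_zero_iff eqHom modPRep modPRep_mk finite_subgroup)
open FLTAgent.Lowering.P1.UnitBound renaming ModP → MP

local notation "LL" => AlgebraicClosure ℚ
local notation "GG" => (AlgebraicClosure ℚ ≃ₐ[ℚ] AlgebraicClosure ℚ)
local notation "VS" => ValuationSubring (AlgebraicClosure ℚ)
local notation "pP" => ExtCitation.pPrime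

variable {p : ℕ} [Fact p.Prime] {S₁ : Finset Nat.Primes} {F : SField p S₁}

/-! ### The sets of primes -/

/-- The set as natural numbers. -/
def Sn (S : Finset Nat.Primes) : Finset ℕ := S.image fun q : Nat.Primes => (q : ℕ)

theorem mem_Sn {S : Finset Nat.Primes} {l : ℕ} : l ∈ Sn S ↔ ∃ q ∈ S, (q : ℕ) = l :=
  Finset.mem_image

theorem prime_of_mem_Sn {S : Finset Nat.Primes} {l : ℕ} (h : l ∈ Sn S) : l.Prime := by
  obtain ⟨q, -, rfl⟩ := mem_Sn.1 h
  exact q.2

theorem notMem_of_Sn {S : Finset Nat.Primes} {l : ℕ} (hl : l.Prime) (h : l ∉ Sn S) :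
    (⟨l, hl⟩ : Nat.Primes) ∉ S := fun hh => h (mem_Sn.2 ⟨_, hh, rfl⟩)

theorem ne_p_of_Sn {S : Finset Nat.Primes} (hp : pP p ∈ S) {l : ℕ} (h : l ∉ Sn S) : l ≠ p :=
  fun e => h (mem_Sn.2 ⟨_, hp, e.symm⟩)

theorem inertia_le {S : Finset Nat.Primes} (hS : S₁ ⊆ S) {l : ℕ} (hl : l.Prime) (h : l ∉ Sn S)
    {V : VS} (hV : V.LiesOverPrime l) : V.inertiaSubgroupIn ℚ ≤ F.N :=
  F.unram.2 ⟨l, hl⟩ (fun hh => notMem_of_Sn hl h (hS hh)) V hV

/-! ### The characters -/

variable {T : Finset ℕ}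

/-- The element fixes the number and the roots of unity. -/
def Good (a : UnitMod F T) (σ : GG) : Prop := σ (val F a) = val F a ∧ om p σ = 1

theorem good_of_N (a : UnitMod F T) {σ : GG} (h : σ ∈ F.N) : Good a σ :=
  ⟨(Additive.toMul a).2.1 σ ((pr_eq_one_iff F).2 h), F.zeta σ h⟩

theorem Good.mul {a : UnitMod F T} {σ τ : GG} (h : Good a σ) (h' : Good a τ) : Good a (σ * τ) :=
  ⟨by rw [AlgEquiv.mul_apply, h'.1, h.1], by rw [om_mul, h.2, h'.2, one_mul]⟩

theorem Good.zeta {a : UnitMod F T} {σ : GG} (h : Good a σ) : σ (zeta p) = zeta p := by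
  rw [apply_zeta, h.2, ZMod.val_one, pow_one]

/-- A root. -/
def rootU (a : UnitMod F T) : LL :=
  (IsAlgClosed.exists_pow_nat_eq (val F a) (Fact.out : p.Prime).pos).choose

theorem rootU_pow (a : UnitMod F T) : rootU a ^ p = val F a :=
  (IsAlgClosed.exists_pow_nat_eq (val F a) (Fact.out : p.Prime).pos).choose_spec

theorem rootU_ne (a : UnitMod F T) : rootU a ≠ 0 := fun h =>
  val_ne F a (by rw [← rootU_pow, h, zero_pow (Fact.out : p.Prime).ne_zero])

/-- The exponent of the action on the root. -/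
def kapU (a : UnitMod F T) (σ : GG) : ZMod p :=
  haveI := Classical.propDecidable
    (∃ i : ZMod p, σ (rootU a) = zeta p ^ i.val * rootU a)
  if h : ∃ i : ZMod p, σ (rootU a) = zeta p ^ i.val * rootU a then h.choose else 0

theorem apply_rootU {a : UnitMod F T} {σ : GG} (h : Good a σ) {r : LL} (hr : r ^ p = val F a) :
    σ r = zeta p ^ (kapU a σ).val * r := by
  have hex : ∃ i : ZMod p, σ (rootU a) = zeta p ^ i.val * rootU a := by
    obtain ⟨i, hi, e⟩ := (zeta_spec p).eq_pow_of_pow_eq_one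
      (show (σ (rootU a) / rootU a) ^ p = 1 by
        rw [div_pow, ← map_pow, rootU_pow, h.1, div_self (val_ne F a)])
    exact ⟨(i : ZMod p), by rw [ZMod.val_cast_of_lt hi, e, div_mul_cancel₀ _ (rootU_ne a)]⟩
  have hs : σ (rootU a) = zeta p ^ (kapU a σ).val * rootU a := by
    rw [kapU, dif_pos hex]
    exact hex.choose_spec
  obtain ⟨j, -, hj⟩ := (zeta_spec p).eq_pow_of_pow_eq_one
    (show (r / rootU a) ^ p = 1 by rw [div_pow, hr, rootU_pow, div_self (val_ne F a)])
  have e : r = zeta p ^ j * rootU a := by rw [hj, div_mul_cancel₀ _ (rootU_ne a)]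
  rw [e, map_mul, map_pow, h.zeta, hs]
  ring

theorem kapU_eq {a : UnitMod F T} {σ : GG} (h : Good a σ) {r : LL} (hr : r ^ p = val F a)
    {i : ZMod p} (hi : σ r = zeta p ^ i.val * r) : kapU a σ = i := by
  have hr0 : r ≠ 0 := fun e => val_ne F a (by
    rw [← hr, e, zero_pow (Fact.out : p.Prime).ne_zero])
  rw [apply_rootU h hr] at hi
  exact Field.zeta_pow_inj p (mul_right_cancel₀ hr0 hi)

theorem kapU_eq_zero {a : UnitMod F T} {σ : GG} (h : Good a σ) {r : LL} (hr : r ^ p = val F a)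
    (hi : σ r = r) : kapU a σ = 0 :=
  kapU_eq h hr (by rw [hi, ZMod.val_zero, pow_zero, one_mul])

theorem kapU_add {a b : UnitMod F T} {σ : GG} (ha : Good a σ) (hb : Good b σ) :
    kapU (a + b) σ = kapU a σ + kapU b σ := by
  refine kapU_eq ⟨by rw [val_add, map_mul, ha.1, hb.1], ha.2⟩ (r := rootU a * rootU b) ?_ ?_
  · rw [mul_pow, rootU_pow, rootU_pow, val_add]
  · rw [map_mul, apply_rootU ha (rootU_pow a), apply_rootU hb (rootU_pow b),
      Lowering.P1.Brauer.zeta_pow_val_add (zeta_spec p)]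
    ring

theorem kapU_mul {a : UnitMod F T} {σ τ : GG} (h : Good a σ) (h' : Good a τ) :
    kapU a (σ * τ) = kapU a σ + kapU a τ := by
  refine kapU_eq (h.mul h') (rootU_pow a) ?_
  rw [AlgEquiv.mul_apply, apply_rootU h' (rootU_pow a), map_mul, map_pow, h.zeta,
    apply_rootU h (rootU_pow a), Lowering.P1.Brauer.zeta_pow_val_add (zeta_spec p)]
  ring

theorem kapU_conj {a : UnitMod F T} (τ : GG) {σ : GG} (h : Good a σ) :
    kapU (actU F T (pr F τ) a) (τ * σ * τ⁻¹) = om p τ * kapU a σ := by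
  have hinv : ∀ x : LL, (τ⁻¹ : GG) (τ x) = x := fun x => τ.symm_apply_apply x
  refine kapU_eq (r := τ (rootU a)) ⟨?_, ?_⟩ (by rw [← map_pow, rootU_pow, val_actU]) ?_
  · rw [val_actU, AlgEquiv.mul_apply, AlgEquiv.mul_apply, hinv, h.1]
  · rw [om_mul, om_mul, h.2, mul_one, ← om_mul, mul_inv_cancel]
    simp [om]
  · rw [AlgEquiv.mul_apply, AlgEquiv.mul_apply, hinv, apply_rootU h (rootU_pow a), map_mul,
      apply_zeta_val]

theorem kapU_nsmul {a : UnitMod F T} {σ : GG} (h : Good a σ) : kapU (p • a) σ = 0 := by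
  refine kapU_eq_zero ⟨by rw [val_nsmul, map_pow, h.1], h.2⟩ (r := val F a) ?_ h.1
  rw [val_nsmul]

theorem valuation_rootU (a : UnitMod F T) {l : ℕ} (hl : l.Prime) (hlT : l ∉ T) {V : VS}
    (hV : V.LiesOverPrime l) : V.valuation (rootU a) = 1 := by
  have h : V.valuation (rootU a) ^ p = 1 := by
    rw [← map_pow, rootU_pow]
    exact (Additive.toMul a : ↥(sUnits F T)).2.2 l hl hlT V hV
  exact (pow_eq_one_iff.1 h).resolve_right (Fact.out : p.Prime).ne_zero

theorem kapU_inertia {a : UnitMod F T} {l : ℕ} (hl : l.Prime) (hlT : l ∉ T) (hlp : l ≠ p)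
    {V : VS} (hV : V.LiesOverPrime l) {σ : GG} (hσ : σ ∈ V.inertiaSubgroupIn ℚ)
    (h : Good a σ) : kapU a σ = 0 := by
  by_contra hne
  have h1 := valuation_rootU a hl hlT hV
  have h2 := V.mem_nonunits_iff.1
    (((Places.mem_inertia_iff V).1 hσ).2 (rootU a) ((V.valuation_le_one_iff _).1 h1.le))
  rw [apply_rootU h (rootU_pow a), ← sub_one_mul, map_mul, h1, mul_one] at h2
  obtain ⟨i, hi, e⟩ := (Lowering.P1.UnitBound.zetaP_spec p).eq_pow_of_pow_eq_one
    (show (zeta p ^ (kapU a σ).val) ^ p = 1 by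
      rw [← pow_mul, mul_comm, pow_mul, (zeta_spec p).pow_eq_one, one_pow])
  rw [← e, ← ZMod.val_cast_of_lt (n := p) hi] at h2
  have h0 := eq_zero_of_valuation_sub_lt hl hlp hV h2
  have hi0 : i = 0 := by
    have := congrArg ZMod.val h0
    rwa [ZMod.val_cast_of_lt hi, ZMod.val_zero] at this
  rw [hi0, pow_zero] at e
  exact hne (Field.zeta_pow_inj p (by rw [← e, ZMod.val_zero, pow_zero]))

theorem apply_rootU_of_zero {a : UnitMod F T} {σ : GG} (h : Good a σ) (h0 : kapU a σ = 0)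
    {r : LL} (hr : r ^ p = val F a) : σ r = r := by
  rw [apply_rootU h hr, h0, ZMod.val_zero, pow_zero, one_mul]

/-! ### On a layer -/

variable (Y : Lay F)

theorem good_of_mem (a : fixM Y.A₀ (actU F T)) {σ : GG} (h : σ ∈ Y.Pn) :
    Good (a : UnitMod F T) σ :=
  ⟨by rw [← val_actU, a.2 _ (Y.pr_mem_A₀.2 h)], Y.om_one σ h⟩

instance Lay.fintypeQ : Fintype Y.Q := Fintype.ofFinite _

/-- The characters modulo powers. -/
def Lay.kapQ : MP p (fixM Y.A₀ (actU F T)) →ₗ[ZMod p] (↥Y.Pn → ZMod p) :=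
  let κ : fixM Y.A₀ (actU F T) →+ (↥Y.Pn → ZMod p) :=
    AddMonoidHom.mk' (fun a σ => kapU (a : UnitMod F T) σ.1) fun a b => funext fun σ =>
      kapU_add (good_of_mem Y a σ.2) (good_of_mem Y b σ.2)
  AddMonoidHom.toZModLinearMap p (QuotientAddGroup.lift _ κ (by
    rintro _ ⟨y, rfl⟩
    show κ (p • y) = 0
    rw [map_nsmul, ← Nat.cast_smul_eq_nsmul (ZMod p), CharP.cast_eq_zero, zero_smul]))

theorem Lay.kapQ_mk (a : fixM Y.A₀ (actU F T)) (σ : ↥Y.Pn) :
    Y.kapQ (QuotientAddGroup.mk a) σ = kapU (a : UnitMod F T) σ.1 := rfl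

theorem Lay.kapQ_injective : Function.Injective (Y.kapQ (T := T)) := by
  refine (injective_iff_map_eq_zero _).2 fun v hv => ?_
  induction v using QuotientAddGroup.induction_on with
  | H a =>
    have hfix : ∀ σ ∈ Y.Pn, σ (rootU (a : UnitMod F T)) = rootU (a : UnitMod F T) := fun σ hσ =>
      apply_rootU_of_zero (good_of_mem Y a hσ) (congrFun hv ⟨σ, hσ⟩) (rootU_pow _)
    refine mk_eq_zero_iff.2 ⟨⟨Additive.ofMul ⟨Units.mk0 _ (rootU_ne (a : UnitMod F T)),
      fun σ hσ => hfix σ (Y.N_le ((pr_eq_one_iff F).1 hσ)),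
      fun l hl hlT V hV => valuation_rootU _ hl hlT hV⟩, fun g hg => ?_⟩, ?_⟩
    · apply val_injective F
      rw [← rb_lift F g, val_actU]
      exact hfix _ (Y.lift_mem_A₀.2 hg)
    · refine Subtype.ext (val_injective F ?_)
      rw [AddSubmonoidClass.coe_nsmul, val_nsmul]
      exact rootU_pow _

theorem Lay.kapQ_mul (v : MP p (fixM Y.A₀ (actU F T))) (σ τ : ↥Y.Pn) :
    Y.kapQ v (σ * τ) = Y.kapQ v σ + Y.kapQ v τ := by
  induction v using QuotientAddGroup.induction_on with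
  | H a => exact kapU_mul (good_of_mem Y a σ.2) (good_of_mem Y a τ.2)

theorem Lay.kapQ_conj (h : ↥Y.H) (v : MP p (fixM Y.A₀ (actU F T))) (σ σ' : ↥Y.Pn)
    (e : (σ' : GG) = h * σ * (h : GG)⁻¹) :
    Y.kapQ (modPRep (p := p) (fixAct Y.B₀ Y.A₀ (actU F T) Y.hle) (Y.toQ h) v) σ' =
      om p (h : GG) * Y.kapQ v σ := by
  induction v using QuotientAddGroup.induction_on with
  | H a =>
    rw [modPRep_mk, Y.kapQ_mk, Y.kapQ_mk, Y.fixAct_toQ, e]
    exact kapU_conj _ (good_of_mem Y a σ.2)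

/-! ### The level -/

variable (F) in
/-- The roots of a generating set. -/
theorem exists_gens (T : Finset ℕ) : ∃ B : Finset (UnitMod F T),
    AddSubgroup.closure (B : Set (UnitMod F T)) = ⊤ :=
  AddGroup.fg_def.1 (fg_unitMod F T)

variable (F) in
/-- The field of the roots of the units. -/
def kumField (T : Finset ℕ) : IntermediateField ℚ LL :=
  F.K ⊔ IntermediateField.adjoin ℚ (rootU '' ((exists_gens F T).choose : Set (UnitMod F T)))

theorem kumField_N {σ : GG} (h : σ ∈ (kumField F T).fixingSubgroup) : σ ∈ F.N :=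
  IntermediateField.fixingSubgroup_antitone le_sup_left h

theorem kumField_kap {σ : GG} (h : σ ∈ (kumField F T).fixingSubgroup) (a : UnitMod F T) :
    kapU a σ = 0 := by
  have hN := kumField_N h
  have ha : a ∈ AddSubgroup.closure ((exists_gens F T).choose : Set (UnitMod F T)) := by
    rw [(exists_gens F T).choose_spec]; trivial
  induction ha using AddSubgroup.closure_induction with
  | mem b hb =>
    refine kapU_eq_zero (good_of_N b hN) (rootU_pow b) ?_
    exact (IntermediateField.mem_fixingSubgroup_iff _ _).1 h _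
      (le_sup_right (a := F.K) (IntermediateField.subset_adjoin _ _ ⟨b, hb, rfl⟩))
  | zero =>
    exact kapU_eq_zero (good_of_N _ hN) (r := 1) (by rw [one_pow, val_zero]) (map_one σ)
  | add b c _ _ hb hc =>
    rw [kapU_add (good_of_N b hN) (good_of_N c hN), hb, hc, add_zero]
  | neg b _ hb =>
    refine kapU_eq_zero (good_of_N _ hN) (r := (rootU b)⁻¹) ?_ ?_
    · rw [inv_pow, rootU_pow, val_neg]
    · rw [map_inv₀, apply_rootU_of_zero (good_of_N b hN) hb (rootU_pow b)]

theorem kumField_unram {S : Finset Nat.Primes} (hp : pP p ∈ S) (hS : S₁ ⊆ S) :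
    (kumField F (Sn S)).IsUnramifiedOutside S := by
  haveI := F.fd
  haveI : FiniteDimensional ℚ (IntermediateField.adjoin ℚ
      (rootU '' ((exists_gens F (Sn S)).choose : Set (UnitMod F (Sn S))))) :=
    haveI := Set.Finite.image rootU
      (Finset.finite_toSet (exists_gens F (Sn S)).choose) |>.to_subtype
    IntermediateField.finiteDimensional_adjoin fun x _ => Lowering.P1.Brauer.integral_coe x
  refine ⟨IntermediateField.finiteDimensional_sup _ _, fun q hq V hV σ hσ => ?_⟩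
  have hq' : (q : ℕ) ∉ Sn S := fun h => by
    obtain ⟨r, hr, e⟩ := mem_Sn.1 h
    exact hq (Subtype.ext e ▸ hr)
  have hN : σ ∈ F.N := inertia_le hS q.2 hq' hV hσ
  rw [kumField, IntermediateField.fixingSubgroup_sup]
  refine ⟨hN, ?_⟩
  show σ ∈ (IntermediateField.adjoin ℚ
    (rootU '' ((exists_gens F (Sn S)).choose : Set (UnitMod F (Sn S))))).fixingSubgroup
  rw [← Subgroup.zpowers_le, ← IntermediateField.le_iff_le, IntermediateField.adjoin_le_iff]
  rintro _ ⟨b, -, rfl⟩
  rw [SetLike.mem_coe, IntermediateField.mem_fixedField_iff]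
  intro τ hτ
  have hτI : τ ∈ V.inertiaSubgroupIn ℚ := Subgroup.zpowers_le.2 hσ hτ
  have hτN := inertia_le (F := F) hS q.2 hq' hV hτI
  exact apply_rootU_of_zero (good_of_N b hτN)
    (kapU_inertia q.2 hq' (ne_p_of_Sn hp hq') hV hτI (good_of_N b hτN)) (rootU_pow b)

/-! ### The characters of the group of the field -/

variable (F) in
/-- The layer of the whole group. -/
def topLay : Lay F where
  H := ⊤
  Pn := F.N
  N_le := le_rfl
  le := le_top
  conj := fun h _ u hu => F.instNormal.conj_mem u hu h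
  om_one := F.zeta

variable (F) in
/-- The sets of primes for which the characters are those of units. -/
theorem exists_bound : ∃ S₀ : Finset Nat.Primes, pP p ∈ S₀ ∧ S₁ ⊆ S₀ ∧
    ∀ S : Finset Nat.Primes, S₀ ⊆ S → ∀ (f : GG → ZMod p),
      (∀ σ ∈ F.N, ∀ τ ∈ F.N, f (σ * τ) = f σ + f τ) → Lowering.P1.Brauer.LevOn F.N f →
      (∀ l : ℕ, l.Prime → l ∉ Sn S → ∀ V : VS, V.LiesOverPrime l →
        ∀ σ ∈ V.inertiaSubgroupIn ℚ, f σ = 0) →
      ∃ v : MP p (fixM (topLay F).A₀ (actU F (Sn S))),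
        ∀ σ : ↥(topLay F).Pn, (topLay F).kapQ v σ = f (σ : GG) := by
  classical
  haveI := F.fd
  obtain ⟨C, hCp, hC⟩ := exists_class_primes (K := F.K)
  refine ⟨insert (pP p) (S₁ ∪ C.attach.image fun l => (⟨l.1, hCp l.1 l.2⟩ : Nat.Primes)),
    Finset.mem_insert_self _ _, fun q hq => Finset.mem_insert_of_mem (Finset.mem_union_left _ hq), fun S hS f hf hlev hun => ?_⟩
  have hS₁ : S₁ ⊆ S := fun q hq => hS (Finset.mem_insert_of_mem (Finset.mem_union_left _ hq))
  have hCS : C ⊆ Sn S := fun l hl => mem_Sn.2 ⟨⟨l, hCp l hl⟩, hS (Finset.mem_insert_of_mem (Finset.mem_union_right _ (Finset.mem_image.2 ⟨⟨l, hl⟩, Finset.mem_attach _ _, rfl⟩))),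
    rfl⟩
  obtain ⟨α, hα0, hα, hαp⟩ := Lowering.P1.Brauer.exists_kummer (H := F.N) (zeta_spec p)
    ((Field.fixZ_iff p).2 F.zeta) hf hlev
  obtain ⟨u, y, hy, hy0, hu⟩ := exists_split F (hC (Sn S) hCS) (pow_ne_zero p hα0)
    (fun σ hσ => hαp σ ((pr_eq_one_iff F).1 hσ)) fun l hl hlS V hV => by
      obtain ⟨i, hi⟩ := Mazur.exists_zpow_valuation V hl hV hα0 fun σ hσ => by
        rw [hα σ (inertia_le hS₁ hl hlS hV hσ), hun l hl hlS V hV σ hσ, ZMod.val_zero, pow_zero,
          one_mul]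
      exact ⟨i, by rw [map_pow, hi, map_zpow₀, ← zpow_natCast, ← zpow_mul, mul_comm]⟩
  refine ⟨QuotientAddGroup.mk ⟨u, fun g hg => ?_⟩, fun σ => ?_⟩
  · apply val_injective F
    rw [← rb_lift F g, val_actU]
    exact (Additive.toMul u).2.1 _ ((pr_eq_one_iff F).2 ((topLay F).lift_mem_A₀.2 hg))
  · rw [Lay.kapQ_mk]
    refine kapU_eq (good_of_N u σ.2) (r := α / y) ?_ ?_
    · rw [div_pow, hu, mul_div_cancel_right₀ _ (pow_ne_zero _ hy0)]
    · rw [map_div₀, hα σ σ.2, hy σ ((pr_eq_one_iff F).2 σ.2), mul_div_assoc]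

/-! ### Restriction of the cocycles to the group of the field -/

variable {A A' : Type} [AddCommGroup A] [Module (ZMod p) A] [AddCommGroup A'] [Module (ZMod p) A']
  {ρ : Representation (ZMod p) GG A} {ρ' : Representation (ZMod p) GG A'}

/-- The pairing of a cochain with the vectors, over the group of the field. -/
def pairN (F : SField p S₁) (P : DualPair ρ ρ') :
    (GG → A) →ₗ[ZMod p] (A' →ₗ[ZMod p] (↥(topLay F).Pn → ZMod p)) where
  toFun c := LinearMap.pi fun σ => P.e (c σ.1)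
  map_add' c d := LinearMap.ext fun a => funext fun σ => by simp
  map_smul' r c := LinearMap.ext fun a => funext fun σ => by simp

theorem pairN_apply (P : DualPair ρ ρ') (c : GG → A) (a : A') (σ : ↥(topLay F).Pn) :
    pairN F P c a σ = P.e (c σ.1) a := rfl

theorem pairN_mem_range (hρ : F.Triv ρ) (P : DualPair ρ ρ') {S : Finset Nat.Primes}
    (hB : ∀ (f : GG → ZMod p),
      (∀ σ ∈ F.N, ∀ τ ∈ F.N, f (σ * τ) = f σ + f τ) → Lowering.P1.Brauer.LevOn F.N f →
      (∀ l : ℕ, l.Prime → l ∉ Sn S → ∀ V : VS, V.LiesOverPrime l →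
        ∀ σ ∈ V.inertiaSubgroupIn ℚ, f σ = 0) →
      ∃ v : MP p (fixM (topLay F).A₀ (actU F (Sn S))),
        ∀ σ : ↥(topLay F).Pn, (topLay F).kapQ v σ = f (σ : GG))
    {c : GG → A} (hc : c ∈ Z1S ρ (MonoidHom.id GG) S) (a : A') :
    pairN F P c a ∈ LinearMap.range ((topLay F).kapQ (T := Sn S)) := by
  obtain ⟨⟨⟨E, hE, hlev⟩, hmul⟩, L, hL, hlevS⟩ := hc
  have hN : ∀ σ ∈ F.N, ∀ τ, c (σ * τ) = c σ + c τ := fun σ hσ τ => by
    rw [hmul, show ρ ((MonoidHom.id GG) σ) = LinearMap.id from hρ σ hσ, LinearMap.id_apply]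
  have h1 : c 1 = 0 := by
    have := hN 1 (one_mem _) 1
    rwa [one_mul, left_eq_add] at this
  obtain ⟨v, hv⟩ := hB (fun σ => P.e (c σ) a)
    (fun σ hσ τ _ => by rw [hN σ hσ, map_add, LinearMap.add_apply])
    ⟨E, hE, fun g _ s _ hs => by show P.e (c (g * s)) a = P.e (c g) a; rw [hlev g s hs]⟩
    fun l hl hlS V hV σ hσ => by
      have h := hlevS 1 σ (hL.2 ⟨l, hl⟩ (notMem_of_Sn hl hlS) V hV hσ)
      rw [one_mul, h1] at h
      rw [h, map_zero, LinearMap.zero_apply]
  exact ⟨v, funext fun σ => (hv σ).trans (pairN_apply P c a σ).symm⟩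

instance finite_fixUnits (A₀ : Subgroup F.Γ) : Module.Finite ℤ (fixM A₀ (actU F T)) :=
  haveI : Module.Finite ℤ (UnitMod F T) :=
    Module.Finite.iff_addGroup_fg.2 (fg_unitMod F T)
  finite_subgroup _

end FLTAgent.TWPrimes.Units
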