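import Fermat.Agent.TWPrimes.Units.Kummer

/-!
# The upper bound for the classes of a relatively projective module

The classes restrict injectively to homomorphisms into the units modulo `p`.
-/

set_option autoImplicit false
set_option linter.style.haveILetI false
set_option linter.unusedSectionVars false
set_option maxHeartbeats 1000000

noncomputable section

open scoped Pointwise

namespace FLTAgent.TWPrimes.Units

open FLTAgent.PoitouTate
open FLTAgent.Lowering.P1.UnitBound (eqHom modPRep finite_modP)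
open FLTAgent.Lowering.P1.UnitBound renaming ModP → MP

local notation "LL" => AlgebraicClosure ℚ
local notation "GG" => (AlgebraicClosure ℚ ≃ₐ[ℚ] AlgebraicClosure ℚ)
local notation "VS" => ValuationSubring (AlgebraicClosure ℚ)
local notation "Dec" => ValuationSubring.decompositionSubgroup ℚ
local notation "pP" => ExtCitation.pPrime

variable {p : ℕ} [Fact p.Prime] {S₁ : Finset Nat.Primes} {F : SField p S₁}

/-! ### Common lemmas -/

/-- The places as a function on the natural numbers. -/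
def Vn (V : Nat.Primes → VS) (l : ℕ) : VS := if h : l.Prime then V ⟨l, h⟩ else ⊤

theorem Vn_coe (V : Nat.Primes → VS) (q : Nat.Primes) : Vn V (q : ℕ) = V q := by
  rw [Vn, dif_pos q.2]
  rfl

theorem Vn_lies {V : Nat.Primes → VS} (hV : ∀ q, (V q).LiesOverPrime (q : ℕ))
    {S : Finset Nat.Primes} {l : ℕ} (h : l ∈ Sn S) : (Vn V l).LiesOverPrime l := by
  obtain ⟨q, -, rfl⟩ := mem_Sn.1 h
  rw [Vn_coe]
  exact hV q

/-- The places, with their representatives. -/
def plRep (C : CC) (S : Finset Nat.Primes) (V : Nat.Primes → VS) :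
    Option ↥S → Pl F (cbar F C) (Sn S) (Vn V)
  | none => Sum.inl (QuotientGroup.mk 1)
  | some q => Sum.inr ⟨⟨(q.1 : ℕ), mem_Sn.2 ⟨q.1, q.2, rfl⟩⟩, QuotientGroup.mk 1⟩

/-- The group of a representative. -/
def repGrp (C : CC) (S : Finset Nat.Primes) (V : Nat.Primes → VS) : Option ↥S → Subgroup GG
  | none => Subgroup.zpowers C.c
  | some q => Dec (V q.1)

theorem repGrp_fix (C : CC) (S : Finset Nat.Primes) (V : Nat.Primes → VS) (i : Option ↥S) {h : GG}
    (hh : h ∈ repGrp C S V i) : pr F h • plRep (F := F) C S V i = plRep C S V i := by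
  cases i with
  | none =>
    show (Sum.inl (QuotientGroup.mk (pr F h * 1)) : Pl F (cbar F C) (Sn S) (Vn V)) = _
    refine congrArg Sum.inl (QuotientGroup.eq.2 ?_)
    rw [mul_one, mul_one]
    refine inv_mem ?_
    rw [cbar, ← MonoidHom.map_zpowers]
    exact ⟨h, hh, rfl⟩
  | some q =>
    refine congrArg Sum.inr ?_
    show (⟨_, QuotientGroup.mk (pr F h * 1)⟩ : FinPl F (Sn S) (Vn V)) = ⟨_, QuotientGroup.mk 1⟩
    congr 1
    refine QuotientGroup.eq.2 ?_
    rw [mul_one, mul_one]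
    refine inv_mem ⟨h, ?_, rfl⟩
    show h ∈ Dec (Vn V (q.1 : ℕ))
    rw [Vn_coe]
    exact hh

theorem exists_plRep (C : CC) (S : Finset Nat.Primes) (V : Nat.Primes → VS)
    (x : Pl F (cbar F C) (Sn S) (Vn V)) :
    ∃ (i : Option ↥S) (g : F.Γ), g • plRep (F := F) C S V i = x := by
  rcases x with y | ⟨⟨l, hl⟩, y⟩ <;> induction y using QuotientGroup.induction_on with | H g => ?_
  · exact ⟨none, g, congrArg Sum.inl (congrArg QuotientGroup.mk (mul_one g))⟩
  · obtain ⟨q, hq, rfl⟩ := mem_Sn.1 hl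
    refine ⟨some ⟨q, hq⟩, g, congrArg Sum.inr ?_⟩
    show (⟨_, QuotientGroup.mk (g * 1)⟩ : FinPl F (Sn S) (Vn V)) = _
    rw [mul_one]
    rfl

/-- The count, over a layer. -/
theorem Lay.count_eq [Fintype F.Γ] (Y : Lay F) {P : Type} [AddCommGroup P] [Module (ZMod p) P]
    [FiniteDimensional (ZMod p) P] (π : Representation (ZMod p) Y.Q P)
    (e : P →ₗ[ZMod p] P) (he : ∀ x, ∑ g, π g (e (π g⁻¹ x)) = x)
    (C : CC) {S : Finset Nat.Primes} {V : Nat.Primes → VS}
    (hV : ∀ q, (V q).LiesOverPrime (q : ℕ)) :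
    Module.finrank (ZMod p)
        ↥(eqHom π (modPRep (p := p) (fixAct Y.B₀ Y.A₀ (actU F (Sn S)) Y.hle))) +
        Module.finrank (ZMod p) ↥(linHom π fun _ => 1) =
      Module.finrank (ZMod p) ↥(permHom (Pl F (cbar F C) (Sn S) (Vn V)) π) +
        Module.finrank (ZMod p) ↥(linHom π (omQ F Y.B₀ Y.A₀)) := by
  haveI : AddGroup.FG (UnitMod F (Sn S)) := fg_unitMod F _
  haveI : Fintype (Pl F (cbar F C) (Sn S) (Vn V)) := Fintype.ofFinite _
  obtain ⟨dd⟩ := exists_dirichletData F (Vn V) C (fun l hl => prime_of_mem_Sn hl)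
    (fun l hl => Vn_lies hV (S := S) hl)
  exact count F Y.B₀ Y.A₀ Y.hle π (fun a ha => Y.om_A₀ ha) e he dd

variable {A A' : Type} [AddCommGroup A] [Module (ZMod p) A] [AddCommGroup A'] [Module (ZMod p) A']
  {ρ : Representation (ZMod p) GG A} {ρ' : Representation (ZMod p) GG A'}

theorem mem_inv_iff (H : Subgroup GG) {a : A} : a ∈ inv ρ H ↔ ∀ g ∈ H, ρ g a = a := by
  simp [inv, Submodule.mem_iInf, sub_eq_zero]

theorem finrank_B1_add [FiniteDimensional (ZMod p) A] :
    Module.finrank (ZMod p) ↥(B1 ρ (MonoidHom.id GG)) +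
      Module.finrank (ZMod p) ↥(inv ρ (⊤ : Subgroup GG)) = Module.finrank (ZMod p) A := by
  have h : LinearMap.ker (d0 ρ (MonoidHom.id GG)) = inv ρ (⊤ : Subgroup GG) := by
    ext a
    rw [LinearMap.mem_ker, mem_inv_iff, funext_iff]
    exact forall_congr' fun g => (sub_eq_zero (a := ρ g a) (b := a)).trans (by simp)
  rw [← h]
  exact LinearMap.finrank_range_add_finrank_ker _

theorem eq_zero_of_pairN (P : DualPair ρ ρ') {c : GG → A} (h : pairN F P c = 0) {σ : GG}
    (hσ : σ ∈ F.N) : c σ = 0 :=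
  P.left _ fun a => congrFun (LinearMap.congr_fun h a) ⟨σ, hσ⟩

variable [FiniteDimensional (ZMod p) A] [FiniteDimensional (ZMod p) A']

/-- Finiteness, once the characters come from units. -/
theorem finite_Z1S (hρ : F.Triv ρ) (P : DualPair ρ ρ') {S : Finset Nat.Primes}
    (hB : ∀ (f : GG → ZMod p),
      (∀ σ ∈ F.N, ∀ τ ∈ F.N, f (σ * τ) = f σ + f τ) → Lowering.P1.Brauer.LevOn F.N f →
      (∀ l : ℕ, l.Prime → l ∉ Sn S → ∀ V : VS, V.LiesOverPrime l →
        ∀ σ ∈ V.inertiaSubgroupIn ℚ, f σ = 0) →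
      ∃ v : MP p (fixM (topLay F).A₀ (actU F (Sn S))),
        ∀ σ : ↥(topLay F).Pn, (topLay F).kapQ v σ = f (σ : GG)) :
    FiniteDimensional (ZMod p) ↥(Z1S ρ (MonoidHom.id GG) S) := by
  haveI : Fintype F.Γ := Fintype.ofFinite _
  let R := LinearMap.range ((topLay F).kapQ (T := Sn S))
  let T : ↥(Z1S ρ (MonoidHom.id GG) S) →ₗ[ZMod p] (A' →ₗ[ZMod p] ↥R) × (F.Γ → A) :=
    { toFun := fun c => ((pairN F P c.1).codRestrict R fun a =>
          pairN_mem_range hρ P hB c.2 a, fun x => c.1 x.out)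
      map_add' := fun c d => Prod.ext (LinearMap.ext fun a => Subtype.ext (by simp))
        (funext fun x => rfl)
      map_smul' := fun r c => Prod.ext (LinearMap.ext fun a => Subtype.ext (by simp))
        (funext fun x => rfl) }
  refine Module.Finite.of_injective T (LinearMap.ker_eq_bot.1 (LinearMap.ker_eq_bot'.2
    fun c hc => Subtype.ext (funext fun σ => ?_)))
  obtain ⟨h1, h2⟩ := Prod.ext_iff.1 hc
  have h0 : pairN F P c.1 = 0 := LinearMap.ext fun a =>
    congrArg Subtype.val (LinearMap.congr_fun h1 a)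
  have hn : (Quotient.out (σ : F.Γ))⁻¹ * σ ∈ F.N := QuotientGroup.eq.1 (QuotientGroup.out_eq' _)
  have h3 := c.2.1.2 (Quotient.out (σ : F.Γ)) ((Quotient.out (σ : F.Γ))⁻¹ * σ)
  rw [mul_inv_cancel_left] at h3
  rw [h3, eq_zero_of_pairN P h0 hn, map_zero, add_zero]
  exact congrFun h2 (σ : F.Γ)

/-! ### The bound -/

theorem eulerLE (P : DualPair ρ ρ') (hρ : F.Triv ρ) (hρ' : F.Triv ρ') [Fintype F.Γ]
    (e : A →ₗ[ZMod p] A) (he : (∑ x : F.Γ, ρ x.out ∘ₗ e ∘ₗ ρ x.out⁻¹) = LinearMap.id) :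
    EulerLE ρ ρ' := by
  classical
  obtain ⟨S₀, hpS₀, hS₁, hB⟩ := exists_bound F
  refine ⟨S₀, hpS₀, fun S hS V hV c hc => ?_⟩
  obtain ⟨ι, hι⟩ := hc
  let C : CC := ⟨c, ι, hι⟩
  have hfin := finite_Z1S hρ P (hB S hS)
  refine ⟨hfin, ?_⟩
  haveI := hfin
  set Y := topLay F with hY
  -- the module over the group of the field
  obtain ⟨e', he'⟩ := exists_adj P e
  let α : ↥Y.H →* Module.End (ZMod p) A' := ρ'.comp Y.H.subtype
  let π := Y.desc α fun u hu => hρ' u hu
  have hπ : ∀ h : ↥Y.H, π (Y.toQ h) = ρ' (h : GG) := fun h => Y.desc_toQ α _ h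
  let j : F.Γ → Y.Q := fun x => Y.toQ ⟨x.out, trivial⟩
  have hj : Function.Bijective j := by
    refine ⟨fun x y h => ?_, fun q => ?_⟩
    · have h1 : Y.toQ ((⟨x.out, trivial⟩ : ↥Y.H)⁻¹ * ⟨y.out, trivial⟩) = 1 := by
        rw [map_mul, map_inv, inv_mul_eq_one]
        exact h
      rw [← QuotientGroup.out_eq' x, ← QuotientGroup.out_eq' y]
      exact QuotientGroup.eq.2 (Y.toQ_eq_one.1 h1)
    · obtain ⟨h, rfl⟩ := Y.toQ_surjective q
      refine ⟨((h : GG) : F.Γ), ?_⟩
      rw [← inv_mul_eq_one, ← map_inv, ← map_mul]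
      exact Y.toQ_eq_one.2 (QuotientGroup.eq.1 (QuotientGroup.out_eq' _))
  have hprobe : ∀ b, ∑ q, π q (e' (π q⁻¹ b)) = b := fun b => by
    rw [← Equiv.sum_comp (Equiv.ofBijective j hj)]
    refine eq_of_pair P fun a => ?_
    rw [map_sum]
    have h2 := LinearMap.congr_fun he a
    rw [LinearMap.sum_apply, LinearMap.id_apply] at h2
    conv_rhs => rw [← h2]
    rw [map_sum, LinearMap.sum_apply]
    refine Finset.sum_congr rfl fun x _ => ?_
    rw [Equiv.ofBijective_apply, ← map_inv, hπ, hπ]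
    exact (adj_conj P he' x.out a b).symm
  -- the restriction
  set T := Sn S with hT
  set m := modPRep (p := p) (fixAct Y.B₀ Y.A₀ (actU F T) Y.hle) with hm
  let Linv := (LinearEquiv.ofInjective (Y.kapQ (T := T)) Y.kapQ_injective).symm
  let Θ₀ : ↥(Z1S ρ (MonoidHom.id GG) S) →ₗ[ZMod p] (A' →ₗ[ZMod p] MP p (fixM Y.A₀ (actU F T))) :=
    { toFun := fun c => Linv.toLinearMap ∘ₗ (pairN F P c.1).codRestrict _ fun a =>
        pairN_mem_range hρ P (hB S hS) c.2 a
      map_add' := fun c d => by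
        refine LinearMap.ext fun a => ?_
        simp only [LinearMap.comp_apply, LinearMap.add_apply, ← map_add]
        exact congrArg _ (Subtype.ext (by simp))
      map_smul' := fun r c => by
        refine LinearMap.ext fun a => ?_
        simp only [LinearMap.comp_apply, LinearMap.smul_apply, RingHom.id_apply, ← map_smul]
        exact congrArg _ (Subtype.ext (by simp)) }
  have hΘ₀ : ∀ c a, Y.kapQ (Θ₀ c a) = pairN F P c.1 a := fun c a =>
    congrArg Subtype.val ((LinearEquiv.ofInjective (Y.kapQ (T := T)) Y.kapQ_injective).apply_symm_apply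
      ((pairN F P c.1).codRestrict _ (fun a => pairN_mem_range hρ P (hB S hS) c.2 a) a))
  have heq : ∀ c, Θ₀ c ∈ eqHom π m := fun c q a => by
    obtain ⟨h, rfl⟩ := Y.toQ_surjective q
    refine Y.kapQ_injective (funext fun σ => ?_)
    have hu : (h : GG)⁻¹ * σ.1 * h ∈ F.N := by
      simpa using F.instNormal.conj_mem _ σ.2 (h : GG)⁻¹
    rw [hΘ₀, Y.kapQ_conj h _ ⟨_, hu⟩ σ (by group), hΘ₀, hπ, pairN_apply, pairN_apply]
    have e1 : c.1 ((h : GG) * ((h : GG)⁻¹ * σ.1 * h) * (h : GG)⁻¹) =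
        ρ (h : GG) (c.1 ((h : GG)⁻¹ * σ.1 * h)) := by
      have hcm : ∀ g g', c.1 (g * g') = c.1 g + ρ g (c.1 g') := c.2.1.2
      have h1 : c.1 1 = 0 := by
        have := hcm 1 1
        rwa [one_mul, map_one, Module.End.one_apply, left_eq_add] at this
      have h2 := hcm (h : GG) (h : GG)⁻¹
      rw [mul_inv_cancel, h1] at h2
      rw [hcm, hcm, map_mul, Module.End.mul_apply, hρ _ hu, LinearMap.id_apply,
        add_right_comm, ← h2, zero_add]
    rw [show (h : GG) * ((h : GG)⁻¹ * σ.1 * h) * (h : GG)⁻¹ = σ.1 by group] at e1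
    rw [e1, P.equivariant]
  let Θ := Θ₀.codRestrict (eqHom π m) heq
  have hker : ∀ c ∈ LinearMap.ker Θ, c.1 ∈ B1 ρ (MonoidHom.id GG) := fun c hc => by
    have hN : ∀ σ ∈ F.N, c.1 σ = 0 := fun σ hσ => eq_zero_of_pairN P (LinearMap.ext fun a => by
      rw [← hΘ₀, show Θ₀ c a = 0 from LinearMap.congr_fun
        (congrArg Subtype.val (LinearMap.mem_ker.1 hc)) a, map_zero]
      rfl) hσ
    have hcm : ∀ g g', c.1 (g * g') = c.1 g + ρ g (c.1 g') := c.2.1.2
    have hc' : ∀ {g g' : GG}, (g : F.Γ) = (g' : F.Γ) → c.1 g = c.1 g' ∧ ρ g = ρ g' :=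
      fun {g g'} h => by
        obtain ⟨n, hn, rfl⟩ : ∃ n ∈ F.N, g' = g * n :=
          ⟨g⁻¹ * g', QuotientGroup.eq.1 h, (mul_inv_cancel_left _ _).symm⟩
        refine ⟨by rw [hcm, hN n hn, map_zero, add_zero], ?_⟩
        rw [map_mul, hρ n hn]
        rfl
    refine ⟨-∑ x : F.Γ, ρ x.out (e (ρ x.out⁻¹ (c.1 x.out))), funext fun g => ?_⟩
    rw [d0_apply, map_neg, sub_neg_eq_add, MonoidHom.id_apply, map_sum, neg_add_eq_sub]
    have hterm : ∀ x : F.Γ, ρ g (ρ x.out (e (ρ x.out⁻¹ (c.1 x.out)))) =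
        ρ ((g : F.Γ) * x).out (e (ρ ((g : F.Γ) * x).out⁻¹ (c.1 ((g : F.Γ) * x).out - c.1 g))) :=
      fun x => by
        have hy : ((((g : F.Γ) * x).out : GG) : F.Γ) = ((g * x.out : GG) : F.Γ) := by
          rw [QuotientGroup.out_eq', QuotientGroup.mk_mul, QuotientGroup.out_eq']
        have hy' : (((((g : F.Γ) * x).out)⁻¹ : GG) : F.Γ) = ((x.out⁻¹ * g⁻¹ : GG) : F.Γ) := by
          rw [QuotientGroup.mk_inv, hy, ← QuotientGroup.mk_inv, mul_inv_rev]
        rw [(hc' hy).1, (hc' hy).2, (hc' hy').2, hcm, add_sub_cancel_left, map_mul, map_mul,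
          Module.End.mul_apply, Module.End.mul_apply, Representation.inv_self_apply]
    have hsum : ∑ x : F.Γ, ρ ((g : F.Γ) * x).out
          (e (ρ ((g : F.Γ) * x).out⁻¹ (c.1 ((g : F.Γ) * x).out - c.1 g))) =
        ∑ x : F.Γ, ρ x.out (e (ρ x.out⁻¹ (c.1 x.out - c.1 g))) :=
      Equiv.sum_comp (Equiv.mulLeft (g : F.Γ)) fun x : F.Γ =>
        ρ x.out (e (ρ x.out⁻¹ (c.1 x.out - c.1 g)))
    rw [Finset.sum_congr rfl fun x _ => hterm x, hsum, ← Finset.sum_sub_distrib]
    have h2 := LinearMap.congr_fun he (c.1 g)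
    rw [LinearMap.sum_apply, LinearMap.id_apply] at h2
    conv_rhs => rw [← h2]
    refine Finset.sum_congr rfl fun x _ => ?_
    simp only [LinearMap.comp_apply, map_sub]
    abel
  -- dimensions
  haveI : Module.Finite (ZMod p) (MP p (fixM Y.A₀ (actU F T))) := inferInstance
  have h1 : Module.finrank (ZMod p) ↥(Z1S ρ (MonoidHom.id GG) S) ≤
      Module.finrank (ZMod p) ↥(eqHom π m) + Module.finrank (ZMod p) ↥(B1 ρ (MonoidHom.id GG)) := by
    rw [← LinearMap.finrank_range_add_finrank_ker Θ]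
    refine add_le_add (Submodule.finrank_le _) ?_
    haveI : FiniteDimensional (ZMod p) ↥(B1 ρ (MonoidHom.id GG)) :=
      Module.Finite.range (d0 ρ (MonoidHom.id GG))
    refine LinearMap.finrank_le_finrank_of_injective
      (f := (((Z1S ρ (MonoidHom.id GG) S).subtype ∘ₗ (LinearMap.ker Θ).subtype).codRestrict _
        fun c => hker c.1 c.2)) fun a b h => Subtype.ext (Subtype.ext (congrArg Subtype.val h :))
  have h2 : Module.finrank (ZMod p) ↥(eqHom π m) +
        Module.finrank (ZMod p) ↥(linHom π fun _ => 1) =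
      Module.finrank (ZMod p) ↥(permHom (Pl F (cbar F C) (Sn S) (Vn V)) π) +
        Module.finrank (ZMod p) ↥(linHom π (omQ F Y.B₀ Y.A₀)) :=
    Y.count_eq π e' hprobe C (S := S) hV
  have h3 : Module.finrank (ZMod p) ↥(linHom π (omQ F Y.B₀ Y.A₀)) ≤
      Module.finrank (ZMod p) ↥(inv ρ (⊤ : Subgroup GG)) := by
    refine (Submodule.finrank_mono (fun L hL => ?_)).trans
      (Submodule.finrank_map_le (P.e) _)
    refine ⟨(toDual P).symm L, (mem_inv_iff _).2 fun g _ => ?_,
      LinearMap.ext fun b => toDual_symm_apply P L b⟩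
    refine sub_eq_zero.1 (P.left _ fun b => ?_)
    rw [map_sub, LinearMap.sub_apply, sub_eq_zero, pair_inv P, toDual_symm_apply,
      toDual_symm_apply]
    have h := hL (Y.toQ ⟨g⁻¹, trivial⟩) b
    rw [hπ, Y.omQ_toQ] at h
    rw [h, ← mul_assoc, ← om_mul, mul_inv_cancel]
    simp [om]
  have h4 : Module.finrank (ZMod p) ↥(inv ρ' (⊤ : Subgroup GG)) ≤
      Module.finrank (ZMod p) ↥(linHom π fun _ => 1) := by
    rw [← invF_top_eq, finrank_invF π e' hprobe]
    refine Submodule.finrank_mono fun v hv q _ => ?_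
    obtain ⟨h, rfl⟩ := Y.toQ_surjective q
    rw [hπ]
    exact (mem_inv_iff _).1 hv _ trivial
  have h5 : Module.finrank (ZMod p) ↥(permHom (Pl F (cbar F C) (Sn S) (Vn V)) π) ≤
      locTerm ρ' S V c := by
    refine (finrank_permHom_le π e' hprobe (plRep C S V) fun x => ?_).trans ?_
    · obtain ⟨i, g, hg⟩ := exists_plRep C S V x
      exact ⟨i, ⟨g, ⟨g.out, trivial, rb_lift F g⟩⟩, hg⟩
    have hle : ∀ i, Module.finrank (ZMod p) ↥(invP π (stQ Y.A₀ Y.B₀ (plRep (F := F) C S V i))) ≤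
        Module.finrank (ZMod p) ↥(inv ρ' (repGrp C S V i)) := fun i => by
      refine Submodule.finrank_mono fun v hv => (mem_inv_iff _).2 fun h hh => ?_
      have := hv (Y.toQ ⟨h, trivial⟩) (mk_mem_stQ (repGrp_fix C S V i hh))
      rwa [hπ] at this
    refine (Finset.sum_le_sum fun i _ => hle i).trans_eq ?_
    rw [Fintype.sum_option, locTerm, add_comm]
    congr 1
    exact Finset.sum_coe_sort S fun q => Module.finrank (ZMod p) ↥(inv ρ' (Dec (V q)))
  have h6 := finrank_B1_add (ρ := ρ)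
  omega

end FLTAgent.TWPrimes.Units
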