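import Fermat.Agent.TWPrimes.Units.Count

/-!
# Layers, invariants and functions on the places

A layer is a pair of subgroups between the group of the field and the whole group; its quotient
acts on modules with a relatively projective structure.
-/

set_option autoImplicit false
set_option linter.style.haveILetI false
set_option linter.unusedSectionVars false

noncomputable section

open scoped Pointwise

namespace FLTAgent.TWPrimes.Units

open FLTAgent.PoitouTate

local notation "LL" => AlgebraicClosure ℚ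
local notation "GG" => (AlgebraicClosure ℚ ≃ₐ[ℚ] AlgebraicClosure ℚ)

variable {p : ℕ} [Fact p.Prime]

/-! ### Invariant vectors and functionals -/

section Invariants

variable {Q : Type} [Group Q] {P : Type} [AddCommGroup P] [Module (ZMod p) P]
  (π : Representation (ZMod p) Q P)

/-- The vectors fixed by a subgroup. -/
def invP (U : Subgroup Q) : Submodule (ZMod p) P where
  carrier := {v | ∀ u ∈ U, π u v = v}
  zero_mem' := fun u _ => map_zero _
  add_mem' := fun {a b} ha hb u hu => by rw [map_add, ha u hu, hb u hu]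
  smul_mem' := fun c a ha u hu => by rw [map_smul, ha u hu]

/-- The functionals fixed by a subgroup. -/
def invF (U : Subgroup Q) : Submodule (ZMod p) (P →ₗ[ZMod p] ZMod p) where
  carrier := {L | ∀ u ∈ U, ∀ v, L (π u v) = L v}
  zero_mem' := fun u _ v => rfl
  add_mem' := fun {a b} ha hb u hu v => by simp [ha u hu v, hb u hu v]
  smul_mem' := fun c a ha u hu v => by simp [ha u hu v]

theorem invF_top_eq : invF π ⊤ = linHom π fun _ => 1 := by
  ext L
  exact ⟨fun h q v => (h q trivial v).trans (one_mul _).symm,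
    fun h u _ v => (h u v).trans (one_mul _)⟩

variable [Fintype Q] [FiniteDimensional (ZMod p) P]

/-- With a relatively projective structure the two have the same dimension. -/
theorem finrank_invF (e : P →ₗ[ZMod p] P) (he : ∀ x, ∑ g : Q, π g (e (π g⁻¹ x)) = x)
    (U : Subgroup Q) :
    Module.finrank (ZMod p) ↥(invF π U) = Module.finrank (ZMod p) ↥(invP π U) := by
  classical
  let eU : P →ₗ[ZMod p] P := ∑ x : Q ⧸ U, π (x.out)⁻¹ ∘ₗ e ∘ₗ π x.out
  have hU : ∀ v, ∑ u : ↥U, π (u : Q) (eU (π (u : Q)⁻¹ v)) = v := fun v => by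
    refine Eq.trans ?_ (he v)
    have hE : Function.Bijective fun y : (Q ⧸ U) × ↥U => y.1.out * (y.2 : Q) := by
      have hm : ∀ (x : Q ⧸ U) (u : ↥U), QuotientGroup.mk (x.out * (u : Q)) = x := fun x u => by
        rw [QuotientGroup.mk_mul_of_mem _ u.2, QuotientGroup.out_eq']
      refine ⟨fun y y' h => ?_, fun g =>
        ⟨(QuotientGroup.mk g, ⟨(QuotientGroup.mk g : Q ⧸ U).out⁻¹ * g,
          QuotientGroup.eq.1 (QuotientGroup.out_eq' _)⟩), mul_inv_cancel_left _ _⟩⟩
      have h' : y.1.out * (y.2 : Q) = y'.1.out * (y'.2 : Q) := h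
      have h1 : y.1 = y'.1 := by
        rw [← hm y.1 y.2, h', hm]
      rw [h1] at h'
      exact Prod.ext h1 (Subtype.ext (mul_left_cancel h'))
    rw [← Equiv.sum_comp (Equiv.inv Q) fun g => π g (e (π g⁻¹ v)),
      ← Equiv.sum_comp (Equiv.ofBijective _ hE),
      Fintype.sum_prod_type, Finset.sum_comm, ← Equiv.sum_comp (Equiv.inv ↥U)]
    refine Finset.sum_congr rfl fun u _ => ?_
    simp only [eU, LinearMap.sum_apply, map_sum, LinearMap.comp_apply]
    refine Finset.sum_congr rfl fun x _ => ?_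
    simp only [Equiv.ofBijective_apply, Equiv.inv_apply, InvMemClass.coe_inv, inv_inv, mul_inv_rev,
      map_mul, Module.End.mul_apply]
  let Nm : P →ₗ[ZMod p] ↥(invP π U) :=
    LinearMap.codRestrict _ (∑ u : ↥U, π (u : Q)) fun v d hd => by
      rw [LinearMap.sum_apply, map_sum]
      refine Fintype.sum_equiv (Equiv.mulLeft (⟨d, hd⟩ : ↥U)) _ _ fun u => ?_
      rw [Equiv.coe_mulLeft, Subgroup.coe_mul, map_mul, Module.End.mul_apply]
  have hNm : Function.Surjective Nm := fun v => by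
    refine ⟨eU v.1, Subtype.ext ?_⟩
    show (∑ u : ↥U, π (u : Q)) (eU v.1) = v.1
    rw [LinearMap.sum_apply]
    refine Eq.trans (Finset.sum_congr rfl fun u _ => ?_) (hU v.1)
    rw [v.2 _ (inv_mem u.2)]
  let T : Module.Dual (ZMod p) ↥(invP π U) →ₗ[ZMod p] ↥(invF π U) :=
    LinearMap.codRestrict _ Nm.dualMap fun L' d hd v => by
      show L' (Nm (π d v)) = L' (Nm v)
      refine congrArg L' (Subtype.ext ?_)
      show (∑ u : ↥U, π (u : Q)) (π d v) = (∑ u : ↥U, π (u : Q)) v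
      rw [LinearMap.sum_apply, LinearMap.sum_apply]
      refine Fintype.sum_equiv (Equiv.mulRight (⟨d, hd⟩ : ↥U)) _ _ fun u => ?_
      rw [Equiv.coe_mulRight, Subgroup.coe_mul, map_mul, Module.End.mul_apply]
  have hTinj : Function.Injective T := fun a b h =>
    LinearMap.dualMap_injective_of_surjective hNm (congrArg Subtype.val h)
  have hTsurj : Function.Surjective T := fun L => by
    have hker : LinearMap.ker Nm ≤ LinearMap.ker L.1 := fun v hv => by
      have hv' : ∑ u : ↥U, π (u : Q)⁻¹ v = 0 := by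
        have h0 : (∑ u : ↥U, π (u : Q)) v = 0 := congrArg Subtype.val (LinearMap.mem_ker.1 hv)
        rw [LinearMap.sum_apply] at h0
        rw [← Equiv.sum_comp (Equiv.inv ↥U)]
        simpa using h0
      have h1 : L.1 v = L.1 (eU (∑ u : ↥U, π (u : Q)⁻¹ v)) := by
        conv_lhs => rw [← hU v]
        rw [map_sum, map_sum, map_sum]
        exact Finset.sum_congr rfl fun u _ => L.2 _ u.2 _
      rw [hv', map_zero, map_zero] at h1
      exact h1
    have hmem : L.1 ∈ LinearMap.range Nm.dualMap := by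
      rw [LinearMap.range_dualMap_eq_dualAnnihilator_ker, Submodule.mem_dualAnnihilator]
      exact fun v hv => hker hv
    obtain ⟨L', hL'⟩ := hmem
    exact ⟨L', Subtype.ext hL'⟩
  exact ((LinearEquiv.ofBijective T ⟨hTinj, hTsurj⟩).finrank_eq.symm.trans
    Subspace.dual_finrank_eq)

end Invariants

/-! ### Homomorphisms into functions -/

section Perm

variable {Γ : Type} [Group Γ] {Z : Type} [MulAction Γ Z] [Finite Z]
  {B₀ A₀ : Subgroup Γ} [(A₀.subgroupOf B₀).Normal]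
  {P : Type} [AddCommGroup P] [Module (ZMod p) P] [FiniteDimensional (ZMod p) P]
  (π : Representation (ZMod p) (↥B₀ ⧸ A₀.subgroupOf B₀) P)

/-- The image of a stabiliser. -/
def stQ (A₀ B₀ : Subgroup Γ) [(A₀.subgroupOf B₀).Normal] (z : Z) :
    Subgroup (↥B₀ ⧸ A₀.subgroupOf B₀) :=
  (MulAction.stabilizer ↥B₀ z).map (QuotientGroup.mk' _)

theorem mk_mem_stQ {b : ↥B₀} {z : Z} (h : (b : Γ) • z = z) :
    (QuotientGroup.mk b : ↥B₀ ⧸ A₀.subgroupOf B₀) ∈ stQ A₀ B₀ z :=
  ⟨b, h, rfl⟩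

/-- Equivariant functions. -/
def eqFun (Z : Type) [MulAction Γ Z] : Submodule (ZMod p) (Z → P) where
  carrier := {w | ∀ (b : ↥B₀) z, w ((b : Γ) • z) = π (QuotientGroup.mk b) (w z)}
  zero_mem' := fun _ _ => (map_zero _).symm
  add_mem' := fun {a b} ha hb g z => by simp [ha g z, hb g z]
  smul_mem' := fun c a ha g z => by simp [ha g z]

variable [Fintype (↥B₀ ⧸ A₀.subgroupOf B₀)] (e : P →ₗ[ZMod p] P)
  (he : ∀ x, ∑ g, π g (e (π g⁻¹ x)) = x)

include he in
/-- The values at representatives. -/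
theorem finrank_permHom_le {ι : Type} [Fintype ι] (z : ι → Z)
    (hz : ∀ x : Z, ∃ i, ∃ b : ↥B₀, (b : Γ) • z i = x) :
    Module.finrank (ZMod p) ↥(permHom Z π) ≤
      ∑ i, Module.finrank (ZMod p) ↥(invP π (stQ A₀ B₀ (z i))) := by
  classical
  haveI : ∀ i, Module.Free (ZMod p) ↥(invF π (stQ A₀ B₀ (z i))) := fun i =>
    Module.Free.of_divisionRing _ _
  rw [← Finset.sum_congr rfl fun i _ => finrank_invF π e he (stQ A₀ B₀ (z i)),
    ← Module.finrank_pi_fintype (ZMod p)]
  let T : ↥(permHom Z π) →ₗ[ZMod p] (i : ι) → ↥(invF π (stQ A₀ B₀ (z i))) :=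
    { toFun := fun φ i => ⟨(LinearMap.proj (z i) : (Z → ZMod p) →ₗ[ZMod p] ZMod p) ∘ₗ φ.1,
        fun q hq v => by
          obtain ⟨b, hb, rfl⟩ := hq
          show φ.1 (π (QuotientGroup.mk b) v) (z i) = φ.1 v (z i)
          rw [φ.2, show (b : Γ)⁻¹ • z i = z i from
            inv_smul_eq_iff.2 (show (b : Γ) • z i = z i from hb).symm]⟩
      map_add' := fun φ ψ => funext fun i => Subtype.ext (LinearMap.ext fun v => rfl)
      map_smul' := fun c φ => funext fun i => Subtype.ext (LinearMap.ext fun v => rfl) }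
  refine LinearMap.finrank_le_finrank_of_injective (f := T) fun φ φ' hφ =>
    Subtype.ext (LinearMap.ext fun v => funext fun x => ?_)
  obtain ⟨i, b, rfl⟩ := hz x
  have h := LinearMap.congr_fun (congrArg Subtype.val (congrFun hφ i))
    (π (QuotientGroup.mk b⁻¹) v)
  change φ.1 (π (QuotientGroup.mk b⁻¹) v) (z i) = φ'.1 (π (QuotientGroup.mk b⁻¹) v) (z i) at h
  rw [φ.2, φ'.2, InvMemClass.coe_inv, inv_inv] at h
  exact h

include he in
/-- Equivariant functions are not more than the homomorphisms. -/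
theorem finrank_eqFun_le :
    Module.finrank (ZMod p) ↥(eqFun π Z) ≤ Module.finrank (ZMod p) ↥(permHom Z π) := by
  classical
  haveI : Fintype Z := Fintype.ofFinite Z
  let O := MulAction.orbitRel.Quotient ↥B₀ Z
  haveI : Fintype O := Fintype.ofFinite _
  let z₀ : O → Z := Quotient.out
  have hb : ∀ x : Z, ∃ b : ↥B₀, (b : Γ) • z₀ (Quotient.mk'' x) = x := fun x => by
    have h := Quotient.exact' (Quotient.out_eq' (Quotient.mk'' x : O)).symm
    obtain ⟨b, hb⟩ := h
    exact ⟨b, hb⟩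
  choose b hb using hb
  have h1 : Module.finrank (ZMod p) ↥(eqFun π Z) ≤
      ∑ o : O, Module.finrank (ZMod p) ↥(invP π (stQ A₀ B₀ (z₀ o))) := by
    rw [← Module.finrank_pi_fintype (ZMod p)]
    let T : ↥(eqFun π Z) →ₗ[ZMod p] (o : O) → ↥(invP π (stQ A₀ B₀ (z₀ o))) :=
      LinearMap.pi fun o => LinearMap.codRestrict _
        (LinearMap.proj (z₀ o) ∘ₗ (eqFun π Z).subtype) fun w q hq => by
        obtain ⟨c, hc, rfl⟩ := hq
        show π (QuotientGroup.mk c) (w.1 (z₀ o)) = w.1 (z₀ o)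
        rw [← w.2, show (c : Γ) • z₀ o = z₀ o from hc]
    refine LinearMap.finrank_le_finrank_of_injective (f := T) ?_
    refine (injective_iff_map_eq_zero T).2 fun w hw => Subtype.ext (funext fun x => ?_)
    have h : w.1 (z₀ (Quotient.mk'' x)) = 0 := congrArg Subtype.val (congrFun hw (Quotient.mk'' x))
    rw [← hb x, w.2, h, map_zero]
    rfl
  have hcong : ∀ (o o' : O), o = o' → ∀ (L : (o : O) → ↥(invF π (stQ A₀ B₀ (z₀ o)))) (c c' : ↥B₀),
      (c : Γ) • z₀ o = (c' : Γ) • z₀ o' → ∀ v, (L o).1 (π (QuotientGroup.mk c⁻¹) v) =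
        (L o').1 (π (QuotientGroup.mk c'⁻¹) v) := by
    rintro o _ rfl L c c' h v
    have hmem : (QuotientGroup.mk (c⁻¹ * c') : ↥B₀ ⧸ A₀.subgroupOf B₀) ∈ stQ A₀ B₀ (z₀ o) := by
      refine mk_mem_stQ ?_
      rw [Subgroup.coe_mul, InvMemClass.coe_inv, mul_smul, ← h, inv_smul_smul]
    have e1 := (L o).2 _ hmem (π (QuotientGroup.mk c'⁻¹) v)
    rw [← Module.End.mul_apply, ← map_mul, ← QuotientGroup.mk_mul, mul_inv_cancel_right] at e1
    exact e1
  refine h1.trans ?_
  haveI : ∀ o, Module.Free (ZMod p) ↥(invF π (stQ A₀ B₀ (z₀ o))) := fun o =>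
    Module.Free.of_divisionRing _ _
  rw [← Finset.sum_congr rfl fun o _ => finrank_invF π e he (stQ A₀ B₀ (z₀ o)),
    ← Module.finrank_pi_fintype (ZMod p)]
  let R : ((o : O) → ↥(invF π (stQ A₀ B₀ (z₀ o)))) →ₗ[ZMod p] ↥(permHom Z π) :=
    { toFun := fun L => ⟨LinearMap.pi fun x =>
        (L (Quotient.mk'' x)).1 ∘ₗ π (QuotientGroup.mk (b x)⁻¹), fun c v x => by
          show (L _).1 (π (QuotientGroup.mk (b x)⁻¹) (π (QuotientGroup.mk c) v)) =
            (L _).1 (π (QuotientGroup.mk (b _)⁻¹) v)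
          rw [← Module.End.mul_apply, ← map_mul, ← QuotientGroup.mk_mul]
          have ho : (Quotient.mk'' x : O) = Quotient.mk'' ((c : Γ)⁻¹ • x) :=
            (MulAction.orbitRel.Quotient.mem_orbit.1 (by rw [MulAction.orbitRel.Quotient.orbit_mk]; exact ⟨c⁻¹, rfl⟩)).symm
          rw [show (b x)⁻¹ * c = (c⁻¹ * b x)⁻¹ by rw [mul_inv_rev, inv_inv]]
          exact hcong _ _ ho L _ _ (by
            rw [Subgroup.coe_mul, InvMemClass.coe_inv, mul_smul, hb, hb]) v⟩
      map_add' := fun L L' => Subtype.ext (LinearMap.ext fun v => funext fun x => rfl)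
      map_smul' := fun c L => Subtype.ext (LinearMap.ext fun v => funext fun x => rfl) }
  refine LinearMap.finrank_le_finrank_of_injective (f := R) ?_
  intro L L' hL
  refine funext fun o => Subtype.ext (LinearMap.ext fun v => ?_)
  have h := congrFun (LinearMap.congr_fun (congrArg Subtype.val hL) v) (z₀ o)
  change (L (Quotient.mk'' (z₀ o))).1 (π (QuotientGroup.mk (b (z₀ o))⁻¹) v) =
    (L' (Quotient.mk'' (z₀ o))).1 (π (QuotientGroup.mk (b (z₀ o))⁻¹) v) at h
  have e1 : ∀ M : (o : O) → ↥(invF π (stQ A₀ B₀ (z₀ o))),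
      (M (Quotient.mk'' (z₀ o))).1 (π (QuotientGroup.mk (b (z₀ o))⁻¹) v) = (M o).1 v := fun M => by
    have e2 := hcong (Quotient.mk'' (z₀ o)) o (Quotient.out_eq' o) M (b (z₀ o)) 1 (by
      rw [hb, OneMemClass.coe_one, one_smul]) v
    rw [inv_one, QuotientGroup.mk_one, map_one, Module.End.one_apply] at e2
    exact e2
  rwa [e1, e1] at h

end Perm

/-! ### Layers -/

variable {S₁ : Finset Nat.Primes} (F : SField p S₁)

theorem om_mul (σ τ : GG) : om p (σ * τ) = om p σ * om p τ := by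
  rw [om, om, om, map_mul, Units.val_mul]

/-- Two subgroups between the group of the field and the whole group. -/
structure Lay where
  H : Subgroup GG
  Pn : Subgroup GG
  N_le : F.N ≤ Pn
  le : Pn ≤ H
  conj : ∀ h ∈ H, ∀ u ∈ Pn, h * u * h⁻¹ ∈ Pn
  om_one : ∀ u ∈ Pn, om p u = 1

variable {F} (Y : Lay F)

/-- The image of the larger subgroup. -/
def Lay.B₀ : Subgroup F.Γ := Y.H.map (pr F)

/-- The image of the smaller subgroup. -/
def Lay.A₀ : Subgroup F.Γ := Y.Pn.map (pr F)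

theorem Lay.hle : Y.A₀ ≤ Y.B₀ := Subgroup.map_mono Y.le

theorem Lay.pr_mem_A₀ {σ : GG} : pr F σ ∈ Y.A₀ ↔ σ ∈ Y.Pn := by
  refine ⟨fun ⟨u, hu, e⟩ => ?_, fun h => ⟨σ, h, rfl⟩⟩
  have h : u⁻¹ * σ ∈ F.N := QuotientGroup.eq.1 e
  have := mul_mem hu (Y.N_le h)
  rwa [mul_inv_cancel_left] at this

theorem Lay.pr_mem_B₀ {σ : GG} : pr F σ ∈ Y.B₀ ↔ σ ∈ Y.H := by
  refine ⟨fun ⟨u, hu, e⟩ => ?_, fun h => ⟨σ, h, rfl⟩⟩
  have h : u⁻¹ * σ ∈ F.N := QuotientGroup.eq.1 e
  have := mul_mem hu (Y.le (Y.N_le h))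
  rwa [mul_inv_cancel_left] at this

theorem Lay.lift_mem_A₀ {g : F.Γ} : lift F g ∈ Y.Pn ↔ g ∈ Y.A₀ := by
  rw [← Y.pr_mem_A₀, rb_lift]

theorem Lay.lift_mem_B₀ {g : F.Γ} : lift F g ∈ Y.H ↔ g ∈ Y.B₀ := by
  rw [← Y.pr_mem_B₀, rb_lift]

instance Lay.normal : (Y.A₀.subgroupOf Y.B₀).Normal := ⟨fun n hn g => by
  obtain ⟨u, hu, e1⟩ := hn
  obtain ⟨h, hh, e2⟩ := g.2
  refine ⟨h * u * h⁻¹, Y.conj h hh u hu, ?_⟩
  rw [map_mul, map_mul, map_inv, e1, e2]
  rfl⟩

theorem Lay.om_A₀ {a : F.Γ} (ha : a ∈ Y.A₀) : om p (lift F a) = 1 :=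
  Y.om_one _ (Y.lift_mem_A₀.2 ha)

/-- The quotient. -/
abbrev Lay.Q : Type := ↥Y.B₀ ⧸ Y.A₀.subgroupOf Y.B₀

/-- The projection on the quotient. -/
def Lay.toQ : ↥Y.H →* Y.Q :=
  (QuotientGroup.mk' _).comp (((pr F).comp Y.H.subtype).codRestrict Y.B₀ fun h => ⟨h, h.2, rfl⟩)

theorem Lay.toQ_surjective : Function.Surjective Y.toQ := fun q => by
  obtain ⟨b, rfl⟩ := QuotientGroup.mk_surjective q
  obtain ⟨h, hh, e⟩ := b.2
  exact ⟨⟨h, hh⟩, congrArg QuotientGroup.mk (Subtype.ext e)⟩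

theorem Lay.toQ_eq_one {h : ↥Y.H} : Y.toQ h = 1 ↔ (h : GG) ∈ Y.Pn :=
  (QuotientGroup.eq_one_iff _).trans Y.pr_mem_A₀

theorem Lay.toQ_ker : Y.toQ.ker = Y.Pn.subgroupOf Y.H := Subgroup.ext fun _ => Y.toQ_eq_one

theorem Lay.card_Q : Nat.card Y.Q = Y.Pn.relIndex Y.H := by
  rw [Subgroup.relIndex, ← Y.toQ_ker, Subgroup.index_ker,
    MonoidHom.range_eq_top.2 Y.toQ_surjective]
  exact Nat.card_congr Subgroup.topEquiv.toEquiv.symm

/-- A representation of the larger subgroup trivial on the smaller one descends. -/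
def Lay.desc {P : Type} [AddCommGroup P] [Module (ZMod p) P]
    (α : ↥Y.H →* Module.End (ZMod p) P) (hα : ∀ u : ↥Y.H, (u : GG) ∈ Y.Pn → α u = 1) :
    Representation (ZMod p) Y.Q P :=
  ((QuotientGroup.lift (Y.toQ.ker) α fun u hu => hα u (Y.toQ_eq_one.1 hu))).comp
    (QuotientGroup.quotientKerEquivOfSurjective Y.toQ Y.toQ_surjective).symm.toMonoidHom

theorem Lay.desc_toQ {P : Type} [AddCommGroup P] [Module (ZMod p) P]
    (α : ↥Y.H →* Module.End (ZMod p) P) (hα : ∀ u : ↥Y.H, (u : GG) ∈ Y.Pn → α u = 1)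
    (h : ↥Y.H) : Y.desc α hα (Y.toQ h) = α h := by
  have e : (QuotientGroup.quotientKerEquivOfSurjective Y.toQ Y.toQ_surjective).symm (Y.toQ h) =
      QuotientGroup.mk h := (MulEquiv.symm_apply_eq _).2 rfl
  rw [Lay.desc, MonoidHom.comp_apply, MulEquiv.coe_toMonoidHom, e]
  rfl

theorem Lay.omQ_toQ (h : ↥Y.H) : omQ F Y.B₀ Y.A₀ (Y.toQ h) = om p (h : GG) :=
  (omQ_mk F Y.B₀ Y.A₀ (fun _ ha => Y.om_A₀ ha) _).trans (om_congr F (by rw [rb_lift]; rfl))

theorem Lay.fixAct_toQ {M : Type} [AddCommGroup M] (α : F.Γ →* AddMonoid.End M) (h : ↥Y.H)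
    (m : fixM Y.A₀ α) :
    (fixAct Y.B₀ Y.A₀ α Y.hle (Y.toQ h) m : M) = α (pr F h) m := rfl

/-! ### The adjoint of an endomorphism -/

variable {A A' : Type} [AddCommGroup A] [Module (ZMod p) A] [AddCommGroup A'] [Module (ZMod p) A']
  [FiniteDimensional (ZMod p) A] [FiniteDimensional (ZMod p) A']
  {ρ : Representation (ZMod p) GG A} {ρ' : Representation (ZMod p) GG A'}

theorem finrank_dualPair (P : DualPair ρ ρ') :
    Module.finrank (ZMod p) A = Module.finrank (ZMod p) A' := by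
  refine le_antisymm ?_ ?_
  · refine (LinearMap.finrank_le_finrank_of_injective (f := P.e) ?_).trans_eq
      Subspace.dual_finrank_eq
    exact (injective_iff_map_eq_zero _).2 fun a ha => P.left a fun b => LinearMap.congr_fun ha b
  · refine (LinearMap.finrank_le_finrank_of_injective (f := P.e.flip) ?_).trans_eq
      Subspace.dual_finrank_eq
    exact (injective_iff_map_eq_zero _).2 fun b hb => P.right b fun a => LinearMap.congr_fun hb a

/-- The vectors of `A` as functionals. -/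
def toDual (P : DualPair ρ ρ') : A ≃ₗ[ZMod p] (A' →ₗ[ZMod p] ZMod p) :=
  have hinj : Function.Injective P.e :=
    (injective_iff_map_eq_zero _).2 fun a ha => P.left a fun b => LinearMap.congr_fun ha b
  LinearEquiv.ofBijective P.e ⟨hinj, (LinearMap.injective_iff_surjective_of_finrank_eq_finrank
    ((finrank_dualPair P).trans Subspace.dual_finrank_eq.symm)).1 hinj⟩

theorem toDual_apply (P : DualPair ρ ρ') (a : A) : toDual P a = P.e a := rfl

theorem toDual_symm_apply (P : DualPair ρ ρ') (L : A' →ₗ[ZMod p] ZMod p) (b : A') :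
    P.e ((toDual P).symm L) b = L b :=
  LinearMap.congr_fun ((toDual P).apply_symm_apply L) b

theorem exists_adj (P : DualPair ρ ρ') (e : A →ₗ[ZMod p] A) :
    ∃ e' : A' →ₗ[ZMod p] A', ∀ a b, P.e (e a) b = P.e a (e' b) := by
  have hinj : Function.Injective P.e.flip :=
    (injective_iff_map_eq_zero _).2 fun b hb => P.right b fun a => LinearMap.congr_fun hb a
  let T := LinearEquiv.ofBijective P.e.flip ⟨hinj,
    (LinearMap.injective_iff_surjective_of_finrank_eq_finrank
      ((finrank_dualPair P).symm.trans Subspace.dual_finrank_eq.symm)).1 hinj⟩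
  exact ⟨T.symm.toLinearMap ∘ₗ (P.e ∘ₗ e).flip, fun a b =>
    (LinearMap.congr_fun (T.apply_symm_apply ((P.e ∘ₗ e).flip b)) a).symm⟩

theorem eq_of_pair (P : DualPair ρ ρ') {b b' : A'} (h : ∀ a, P.e a b = P.e a b') : b = b' :=
  sub_eq_zero.1 (P.right _ fun a => by rw [map_sub, h, sub_self])

theorem pair_inv (P : DualPair ρ ρ') (g : GG) (a : A) (b : A') :
    P.e (ρ g a) b = om p g * P.e a (ρ' g⁻¹ b) := by
  have h := P.equivariant g a (ρ' g⁻¹ b)
  rwa [Representation.self_inv_apply] at h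

/-- The traces of adjoint endomorphisms are adjoint. -/
theorem adj_conj (P : DualPair ρ ρ') {e : A →ₗ[ZMod p] A} {e' : A' →ₗ[ZMod p] A'}
    (h : ∀ a b, P.e (e a) b = P.e a (e' b)) (g : GG) (a : A) (b : A') :
    P.e (ρ g (e (ρ g⁻¹ a))) b = P.e a (ρ' g (e' (ρ' g⁻¹ b))) := by
  rw [pair_inv P, h, pair_inv P g⁻¹ a, inv_inv, ← mul_assoc, ← om_mul, mul_inv_cancel]
  simp [om]

end FLTAgent.TWPrimes.Units
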