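import Fermat.Agent.TWPrimes.Units.Setup
import Fermat.Agent.Lowering.P1.UnitBound.Arith.Units
import Fermat.Agent.TWPrimes.Interface

/-!
# A unit with one dominant conjugate, and primes attached to the cosets of decomposition groups
-/

set_option autoImplicit false
set_option linter.style.haveILetI false
set_option linter.unusedSectionVars false
set_option maxHeartbeats 1000000

noncomputable section

open scoped Pointwise NumberField nonZeroDivisors
open NumberField

namespace FLTAgent.TWPrimes.Units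

open FLTAgent.PoitouTate FLTAgent.Lowering.P1 FLTAgent.Lowering.P1.Brauer
open FLTAgent.Lowering.P1.UnitBound (intMap primeUnder primeUnder_isPrime mem_primeUnder valuation_le_one_int valuation_eq_one_int natCast_mem_primeUnder primeUnder_ne_bot Out exists_prime_mem exists_place_under eq_of_natCast_mem valuation_eq_of_expAt_eq exists_frac ordP coe_int_ne ordP_div ordP_int ordP_mul ordP_one ordP_inv ordP_zpow ordP_prod valuation_eq_one_iff_ordP out_of_notMem valuation_eq_one_outside_iff finite_ordP exists_ord_one valuation_smul_eq_one primeUnder_smul_eq ordP_smul exists_class_primes exists_unit_of_ord_zero)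

local notation "LL" => AlgebraicClosure ℚ
local notation "GG" => (AlgebraicClosure ℚ ≃ₐ[ℚ] AlgebraicClosure ℚ)
local notation "ZB" => integralClosure ℤ (AlgebraicClosure ℚ)

variable {p : ℕ} [Fact p.Prime] {S₁ : Finset Nat.Primes} (F : SField p S₁)

local instance (priority := 900) numberFieldKK [FiniteDimensional ℚ F.K] : NumberField F.K := ⟨⟩

local instance (priority := 900) isAlgebraicLLw : Algebra.IsAlgebraic ℚ LL :=
  AlgebraicClosure.isAlgebraic ℚ

local instance (priority := 900) normalLLw : Normal ℚ LL :=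
  normal_iff.2 fun x => ⟨integral_coe x, IsAlgClosed.splits _⟩

/-! ### Normality -/

theorem apply_eq_of_rb_one {σ : GG} (h : (pr F) σ = 1) {x : LL} (hx : x ∈ F.K) : σ x = x :=
  (mem_field F).1 hx σ h

theorem rb_eq_one_of_fix {σ : GG} (h : ∀ x ∈ F.K, σ x = x) : (pr F) σ = 1 := by
  have h1 : σ ∈ galOf F.K := (IntermediateField.mem_fixingSubgroup_iff _ _).2 h
  rwa [galOf_field F] at h1

/-! ### Primes and cosets -/

theorem primeUnder_smul_ker {k : GG} (hk : (pr F) k = 1) (V : ValuationSubring LL) :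
    primeUnder F.K (k • V) = primeUnder F.K V := by
  ext c
  rw [primeUnder, primeUnder, Ideal.mem_comap, Ideal.mem_comap, Frobenius.mem_centre_iff,
    Frobenius.mem_centre_iff, Places.mem_smul_nonunits_iff,
    show k⁻¹ • ((intMap F.K c : LL)) = (intMap F.K c : LL) from
      apply_eq_of_rb_one F (by rw [map_inv, hk, inv_one]) (c : F.K).2]

theorem primeUnder_smul_congr {σ τ : GG} (h : (pr F) σ = (pr F) τ) (V : ValuationSubring LL) :
    primeUnder F.K (σ • V) = primeUnder F.K (τ • V) := by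
  have hk : (pr F) (σ * τ⁻¹) = 1 := by rw [map_mul, map_inv, h, mul_inv_cancel]
  rw [← primeUnder_smul_ker F hk (τ • V), smul_smul, inv_mul_cancel_right]

theorem exists_ker_smul {V W : ValuationSubring LL}
    (h : primeUnder F.K V = primeUnder F.K W) :
    ∃ k : GG, (pr F) k = 1 ∧ k • V = W := by
  obtain ⟨k, hk, e⟩ := Loc.exists_smul_eq_of_centre (H := galOf F.K)
    (IntermediateField.fixingSubgroup_isClosed _) (V := V) (W := W) fun b hb => by
      have hb' : (b : LL) ∈ F.K :=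
        mem_of_galOf_fixed fun σ hσ => congrArg Subtype.val (hb σ hσ)
      have hint : IsIntegral ℤ (⟨_, hb'⟩ : F.K) :=
        (isIntegral_algebraMap_iff (algebraMap F.K LL).injective).1 b.2
      have e : b = intMap F.K ⟨⟨_, hb'⟩, hint⟩ := Subtype.ext rfl
      rw [e]
      exact Iff.of_eq (congrArg (fun P : Ideal (𝓞 F.K) =>
        (⟨⟨_, hb'⟩, hint⟩ : 𝓞 F.K) ∈ P) h)
  rw [galOf_field F] at hk
  exact ⟨k, hk, e⟩

theorem quot_eq_of_primeUnder {σ τ : GG} {V : ValuationSubring LL}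
    (h : primeUnder F.K (σ • V) = primeUnder F.K (τ • V)) :
    (QuotientGroup.mk ((pr F) σ) : F.Γ ⧸ decImage F V) =
      QuotientGroup.mk ((pr F) τ) := by
  obtain ⟨k, hk, e⟩ := exists_ker_smul F h
  refine QuotientGroup.eq.2 ⟨σ⁻¹ * k⁻¹ * τ, ?_, by simp [hk]⟩
  show (σ⁻¹ * k⁻¹ * τ) • V = V
  rw [mul_smul, mul_smul, ← e, inv_smul_smul, inv_smul_smul]

theorem primeUnder_smul_quot {σ τ : GG} {V : ValuationSubring LL}
    (h : (QuotientGroup.mk ((pr F) σ) : F.Γ ⧸ decImage F V) =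
      QuotientGroup.mk ((pr F) τ)) :
    primeUnder F.K (σ • V) = primeUnder F.K (τ • V) := by
  obtain ⟨d, hd, e⟩ := QuotientGroup.eq.1 h
  rw [primeUnder_smul_congr F (σ := τ) (τ := σ * d) (by rw [map_mul, e, mul_inv_cancel_left]),
    mul_smul, show d • V = V from hd]

/-! ### Complex conjugations -/

/-- A complex conjugation with its embedding. -/
structure CC where
  c : GG
  ι : LL →+* ℂ
  spec : ∀ x : LL, ι (c x) = starRingEnd ℂ (ι x)

/-- Its image. -/
def cbar (C : CC) : F.Γ := pr F C.c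

theorem cbar_mul_self (C : CC) : cbar F C * cbar F C = 1 := by
  rw [cbar, ← map_mul]
  refine rb_eq_one_of_fix F fun x _ => C.ι.injective ?_
  rw [AlgEquiv.mul_apply, C.spec, C.spec, Complex.conj_conj]

variable {C : CC}

/-! ### Logarithms -/

/-- The logarithms of the absolute values of the conjugates. -/
def lg (C : CC) {S : Finset ℕ} (g : F.Γ) (a : UnitMod F S) : ℝ :=
  Real.log ‖C.ι (lift F g (val F a))‖

theorem lg_add {S : Finset ℕ} (g : F.Γ) (a b : UnitMod F S) :
    lg F C g (a + b) = lg F C g a + lg F C g b := by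
  have h : ∀ c : UnitMod F S, ‖C.ι (lift F g (val F c))‖ ≠ 0 := fun c =>
    norm_ne_zero_iff.2 ((map_ne_zero _).2 ((map_ne_zero _).2 (val_ne F c)))
  rw [lg, lg, lg, val_add, map_mul, map_mul, norm_mul, Real.log_mul (h a) (h b)]

/-- The logarithms as a homomorphism. -/
def lgHom (C : CC) {S : Finset ℕ} (g : F.Γ) : UnitMod F S →+ ℝ :=
  AddMonoidHom.mk' (lg F C g) (lg_add F g)

theorem lg_actU {S : Finset ℕ} (g h : F.Γ) (a : UnitMod F S) :
    lg F C g (actU F S h a) = lg F C (g * h) a := by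
  conv_lhs => rw [← rb_lift F h]
  rw [lg, lg, val_actU, ← AlgEquiv.mul_apply]
  exact congrArg (fun y => Real.log ‖C.ι y‖)
    ((Additive.toMul a).2.1.apply_eq (by rw [map_mul, rb_lift, rb_lift, rb_lift]))

theorem lg_cbar_mul {S : Finset ℕ} (g : F.Γ) (a : UnitMod F S) :
    lg F C (cbar F C * g) a = lg F C g a := by
  have h : lift F (cbar F C * g) (val F a) = C.c (lift F g (val F a)) := by
    rw [← AlgEquiv.mul_apply]
    exact (Additive.toMul a).2.1.apply_eq (by rw [map_mul, rb_lift, rb_lift, cbar])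
  rw [lg, lg, h, C.spec, RCLike.norm_conj]

theorem lg_eq_zero_of_torsion {S : Finset ℕ} (g : F.Γ) {a : UnitMod F S}
    (h : IsOfFinAddOrder a) : lg F C g a = 0 := by
  obtain ⟨n, hn, h⟩ := isOfFinAddOrder_iff_nsmul_eq_zero.1 h
  have h1 : n • lgHom F C g a = 0 := by rw [← map_nsmul, h, map_zero]
  exact (smul_eq_zero.1 h1).resolve_left hn.ne'

/-! ### Global units -/

theorem ordP_unit (u : (𝓞 F.K)ˣ) {P : Ideal (𝓞 F.K)} (hP : P.IsPrime)
    (hP0 : P ≠ ⊥) : ordP F.K P (((u : 𝓞 F.K) : F.K) : LL) = 0 := by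
  haveI := hP
  rw [ordP_int F.K P hP0 u.ne_zero, (MW.expAt_eq_zero_iff hP0 u.ne_zero).2 fun h =>
    hP.ne_top (P.eq_top_of_isUnit_mem h u.isUnit)]
  rfl

/-- A global unit as an element. -/
def ofUnit (S : Finset ℕ) : Additive (𝓞 F.K)ˣ →+ UnitMod F S :=
  AddMonoidHom.mk' (fun u => mkUnit F
    ((((Additive.toMul u : (𝓞 F.K)ˣ) : 𝓞 F.K) : F.K) : LL)
    (((Additive.toMul u : (𝓞 F.K)ˣ) : 𝓞 F.K) : F.K).2
    (coe_int_ne F.K (Units.ne_zero _))
    fun P hP => ordP_unit F _ hP.1 hP.2.1) fun u v => val_injective F (by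
      simp only [val_add, val_mkUnit, toMul_add, Units.val_mul]
      push_cast
      rfl)

theorem val_ofUnit (S : Finset ℕ) (u : Additive (𝓞 F.K)ˣ) :
    val F (ofUnit F S u) =
      ((((Additive.toMul u : (𝓞 F.K)ˣ) : 𝓞 F.K) : F.K) : LL) := rfl

theorem exists_ofUnit {S : Finset ℕ} (a : UnitMod F S)
    (h : ∀ P : Ideal (𝓞 F.K), P.IsPrime → P ≠ ⊥ → ordP F.K P (val F a) = 0) :
    ∃ u, ofUnit F S u = a := by
  obtain ⟨u, hu⟩ := exists_unit_of_ord_zero F.K (val_mem F a) (val_ne F a) h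
  exact ⟨Additive.ofMul u, val_injective F hu.symm⟩

/-- The embedding belonging to an element of the image. -/
def emb (C : CC) (g : F.Γ) : F.K →+* ℂ :=
  ((C.ι : LL →+* ℂ).comp (lift F g : LL →+* LL)).comp (algebraMap F.K LL)

theorem mk_emb_apply (g : F.Γ) (x : F.K) :
    InfinitePlace.mk (emb F C g) x = ‖C.ι (lift F g (x : LL))‖ := rfl

theorem mem_zpowers_of_mk_eq {g : F.Γ}
    (h : InfinitePlace.mk (emb F C g) = InfinitePlace.mk (emb F C 1)) :
    g ∈ Subgroup.zpowers (cbar F C) := by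
  have h1 : ∀ x : LL, x ∈ F.K → lift F 1 x = x := fun x hx =>
    apply_eq_of_rb_one F (rb_lift F 1) hx
  rcases InfinitePlace.mk_eq_iff.1 h with e | e
  · have : g = 1 := by
      rw [← rb_lift F g]
      refine rb_eq_one_of_fix F fun x hx => ?_
      have e' := RingHom.congr_fun e ⟨x, hx⟩
      exact (C.ι.injective e').trans (h1 x hx)
    rw [this]
    exact one_mem _
  · have : cbar F C * g = 1 := by
      rw [cbar, ← rb_lift F g, ← map_mul]
      refine rb_eq_one_of_fix F fun x hx => C.ι.injective ?_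
      show C.ι (C.c (lift F g x)) = C.ι x
      rw [C.spec]
      have e' := RingHom.congr_fun e ⟨x, hx⟩
      exact e'.trans (congrArg C.ι (h1 x hx))
    rw [eq_inv_of_mul_eq_one_right this]
    exact inv_mem (Subgroup.mem_zpowers _)

/-- A unit outside `S`, everywhere a unit, fixed by complex conjugation, all of whose conjugates
but one are small. -/
theorem exists_dominant_unit (C : CC) (S : Finset ℕ) : ∃ u : UnitMod F S,
    (∀ P : Ideal (𝓞 F.K), P.IsPrime → P ≠ ⊥ → ordP F.K P (val F u) = 0) ∧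
    actU F S (cbar F C) u = u ∧
    ∀ g : F.Γ, g ∉ Subgroup.zpowers (cbar F C) → lg F C g u < 0 := by
  obtain ⟨u, hu⟩ := Units.dirichletUnitTheorem.exists_unit F.K
    (InfinitePlace.mk (emb F C 1))
  obtain ⟨a, ha⟩ : ∃ a : UnitMod F S, a = ofUnit F S (Additive.ofMul u) := ⟨_, rfl⟩
  have hval : val F a = (((u : 𝓞 F.K) : F.K) : LL) := by rw [ha]; rfl
  have hord : ∀ P : Ideal (𝓞 F.K), P.IsPrime → P ≠ ⊥ →
      ordP F.K P (val F a) = 0 := fun P hP hP0 => by
    rw [hval]; exact ordP_unit F u hP hP0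
  have hneg : ∀ g : F.Γ, g ∉ Subgroup.zpowers (cbar F C) → lg F C g a < 0 := by
    intro g hg
    have := hu _ fun e => hg (mem_zpowers_of_mk_eq F e)
    rw [mk_emb_apply] at this
    rwa [lg, hval]
  refine ⟨a + actU F S (cbar F C) a, fun P hP hP0 => ?_, ?_, fun g hg => ?_⟩
  · rw [val_add, ordP_mul F.K P (val_mem F _) (val_mem F _) (val_ne F _) (val_ne F _),
      hord P hP hP0, zero_add, cbar, val_actU]
    obtain ⟨l, W, hl, hW, hWP, -⟩ := exists_place_under F.K hP hP0
    have hW' := Places.liesOverPrime_smul W (C.c⁻¹) hW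
    have h1 := (valuation_eq_one_iff_ordP F.K hl hW' (val_mem F a) (val_ne F a)).2
      (hord _ inferInstance (primeUnder_ne_bot _ hl hW'))
    have h2 := valuation_apply_eq_one C.c W h1
    rw [← hWP]
    exact (valuation_eq_one_iff_ordP F.K hl hW
      (map_mem_field F _ (val_mem F a)) ((map_ne_zero _).2 (val_ne F a))).1 h2
  · have h : actU F S (cbar F C) (actU F S (cbar F C) a) = a := by
      show (actU F S (cbar F C) * actU F S (cbar F C)) a = a
      rw [← map_mul, cbar_mul_self, map_one]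
      rfl
    rw [map_add, h, add_comm]
  · rw [lg_add, lg_actU]
    have h' : g * cbar F C ∉ Subgroup.zpowers (cbar F C) := fun h =>
      hg ((Subgroup.mul_mem_cancel_right _ (Subgroup.mem_zpowers _)).1 h)
    linarith [hneg g hg, hneg _ h']

/-- Every infinite place belongs to a coset. -/
theorem exists_mk_emb_eq (C : CC) (w : InfinitePlace F.K) :
    ∃ g : F.Γ, InfinitePlace.mk (emb F C g) = w := by
  haveI := F.normal
  haveI : IsGalois ℚ F.K := ⟨⟩
  obtain ⟨s, hs⟩ := InfinitePlace.exists_smul_eq_of_comap_eq (k := ℚ)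
    (w := InfinitePlace.mk (emb F C 1)) (w' := w) (Subsingleton.elim _ _)
  obtain ⟨τ, hτ⟩ := AlgEquiv.restrictNormalHom_surjective LL s.symm
  refine ⟨(pr F) τ, InfinitePlace.ext _ _ fun x => ?_⟩
  rw [← hs, InfinitePlace.smul_apply, mk_emb_apply, mk_emb_apply,
    ((mem_field F).1 x.2).apply_eq (rb_lift F ((pr F) τ)),
    apply_eq_of_rb_one F (rb_lift F 1) (s.symm x).2, ← hτ]
  exact congrArg (fun y => ‖C.ι y‖)
    (AlgEquiv.restrictNormal_commutes τ F.K x).symm

theorem card_infinitePlace_le (C : CC) [Fintype (InfPl F (cbar F C))] :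
    Fintype.card (InfinitePlace F.K) ≤ Fintype.card (InfPl F (cbar F C)) := by
  refine Fintype.card_le_of_surjective (fun q => InfinitePlace.mk (emb F C q.out⁻¹)) fun w => ?_
  obtain ⟨g, rfl⟩ := exists_mk_emb_eq F C w
  refine ⟨QuotientGroup.mk g⁻¹, ?_⟩
  show InfinitePlace.mk (emb F C _) = _
  obtain ⟨⟨k, hk⟩, hk'⟩ := QuotientGroup.mk_out_eq_mul (Subgroup.zpowers (cbar F C)) g⁻¹
  rw [hk', mul_inv_rev, inv_inv]
  have hk1 : k⁻¹ ∈ Subgroup.zpowers (cbar F C) := inv_mem hk
  refine InfinitePlace.ext _ _ fun x => ?_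
  rw [mk_emb_apply, mk_emb_apply]
  obtain ⟨n, hn⟩ := Subgroup.mem_zpowers_iff.1 hk1
  have hsq : (cbar F C) ^ (2 : ℤ) = 1 := by rw [zpow_two, cbar_mul_self]
  obtain ⟨m, rfl | rfl⟩ := Int.even_or_odd' n
  · rw [zpow_mul, hsq, one_zpow] at hn
    rw [← hn, one_mul]
  · rw [zpow_add_one, zpow_mul, hsq, one_zpow, one_mul] at hn
    rw [← hn, ((mem_field F).1 x.2).apply_eq (σ := lift F (cbar F C * g))
      (τ := C.c * lift F g) (by rw [map_mul, rb_lift, rb_lift, cbar]),
      AlgEquiv.mul_apply, C.spec, RCLike.norm_conj]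

/-- An element which is positive at exactly one prime. -/
theorem exists_prime_unit {S : Finset ℕ} {l : ℕ} (hl : l.Prime) (hlS : l ∈ S)
    {V : ValuationSubring LL} (hV : V.LiesOverPrime l) :
    ∃ (a : UnitMod F S) (h : ℕ), 0 < h ∧
      ordP F.K (primeUnder F.K V) (val F a) = h ∧
      ∀ Q : Ideal (𝓞 F.K), Q.IsPrime → Q ≠ ⊥ → Q ≠ primeUnder F.K V →
        ordP F.K Q (val F a) = 0 := by
  classical
  obtain ⟨P, hP⟩ : ∃ P, P = primeUnder F.K V := ⟨_, rfl⟩
  rw [← hP]
  haveI hPp : P.IsPrime := hP ▸ primeUnder_isPrime _ V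
  have hP0 : P ≠ ⊥ := hP ▸ primeUnder_ne_bot _ hl hV
  have hlP : (l : 𝓞 F.K) ∈ P := hP ▸ natCast_mem_primeUnder _ hV
  obtain ⟨h, hh, hh0⟩ : ∃ h, h = Fintype.card (ClassGroup (𝓞 F.K)) ∧ 0 < h :=
    ⟨_, rfl, Fintype.card_pos⟩
  have hP' : P ∈ (Ideal (𝓞 F.K))⁰ := mem_nonZeroDivisors_of_ne_zero hP0
  have hPh : P ^ h ∈ (Ideal (𝓞 F.K))⁰ := pow_mem hP' h
  have hmk : ClassGroup.mk0 ⟨P ^ h, hPh⟩ = 1 := by
    rw [show (⟨P ^ h, hPh⟩ : (Ideal (𝓞 F.K))⁰) = ⟨P, hP'⟩ ^ h from rfl, map_pow, hh,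
      pow_card_eq_one]
  obtain ⟨z, hz⟩ := ((ClassGroup.mk0_eq_one_iff hPh).1 hmk).principal
  have hz' : P ^ h = Ideal.span {z} := hz
  have hz0 : z ≠ 0 := fun e => pow_ne_zero h hP0 (by rw [hz', e]; simp)
  have hexp : ∀ Q : Ideal (𝓞 F.K), MW.expAt Q z = if Q = P then h else 0 := fun Q => by
    rw [MW.expAt, ← hz', UniqueFactorizationMonoid.normalizedFactors_pow,
      UniqueFactorizationMonoid.normalizedFactors_irreducible
        (Ideal.prime_of_isPrime hP0 hPp).irreducible, normalize_eq, Multiset.count_nsmul,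
      Multiset.count_singleton]
    split_ifs <;> simp
  have hord : ∀ Q : Ideal (𝓞 F.K), Q.IsPrime → Q ≠ ⊥ → Q ≠ P →
      ordP F.K Q ((z : F.K) : LL) = 0 := fun Q hQ hQ0 hne => by
    haveI := hQ
    rw [ordP_int _ Q hQ0 hz0, hexp, if_neg hne]
    rfl
  refine ⟨mkUnit F ((z : F.K) : LL) (z : F.K).2 (coe_int_ne _ hz0) (fun Q hQ =>
    hord Q hQ.1 hQ.2.1 fun e => hQ.2.2 l hlS hl (e ▸ hlP)), h, hh0, ?_, hord⟩
  rw [val_mkUnit, ordP_int _ P hP0 hz0, hexp, if_pos rfl]

end FLTAgent.TWPrimes.Units
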