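import Fermat.Agent.PoitouTate.Targets
import Fermat.Agent.Lowering.P1.UnitBound.Arith.Class
import Fermat.Agent.Lowering.P1.Primes.Frobenius

/-!
# The units outside a set of primes of a splitting field

The group of the field acts on the units; they are finitely generated, and almost powers split.
-/

set_option autoImplicit false
set_option linter.style.haveILetI false
set_option linter.unusedSectionVars false
set_option maxHeartbeats 1000000

noncomputable section

open scoped Pointwise NumberField nonZeroDivisors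
open NumberField UniqueFactorizationMonoid

namespace FLTAgent.TWPrimes.Units

open FLTAgent.PoitouTate FLTAgent.Lowering.P1 FLTAgent.Lowering.P1.Brauer
open FLTAgent.Lowering.P1.UnitBound (intMap primeUnder primeUnder_isPrime mem_primeUnder valuation_le_one_int valuation_eq_one_int natCast_mem_primeUnder primeUnder_ne_bot Out exists_prime_mem exists_place_under eq_of_natCast_mem valuation_eq_of_expAt_eq exists_frac ordP coe_int_ne ordP_div ordP_int ordP_mul ordP_one ordP_inv ordP_zpow ordP_prod valuation_eq_one_iff_ordP out_of_notMem valuation_eq_one_outside_iff finite_ordP exists_ord_one valuation_smul_eq_one primeUnder_smul_eq ordP_smul exists_class_primes exists_unit_of_ord_zero)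

local notation "LL" => AlgebraicClosure ℚ
local notation "GG" => (AlgebraicClosure ℚ ≃ₐ[ℚ] AlgebraicClosure ℚ)

variable {p : ℕ} [Fact p.Prime] {S₁ : Finset Nat.Primes} (F : SField p S₁)

/-- The projection on the group of the field. -/
def pr : GG →* F.Γ := QuotientGroup.mk' F.N

/-- A lift of an element of the group of the field. -/
def lift (g : F.Γ) : GG := Quotient.out g

theorem rb_lift (g : F.Γ) : (pr F) (lift F g) = g :=
  QuotientGroup.out_eq' g

/-- The element lies in the field cut out by the representation. -/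
def IsFixed (x : LL) : Prop := ∀ σ : GG, (pr F) σ = 1 → σ x = x

variable {F} in
theorem IsFixed.apply_eq {x : LL} (hx : IsFixed F x) {σ τ : GG} (h : (pr F) σ = (pr F) τ) :
    σ x = τ x := by
  have h1 := hx (τ⁻¹ * σ) (by rw [map_mul, map_inv, h, inv_mul_cancel])
  rw [AlgEquiv.mul_apply] at h1
  calc σ x = τ (τ⁻¹ (σ x)) := by rw [← AlgEquiv.mul_apply, mul_inv_cancel]; rfl
    _ = τ x := by rw [h1]

variable {F} in
theorem IsFixed.map {x : LL} (hx : IsFixed F x) (σ : GG) : IsFixed F (σ x) := fun τ hτ => by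
  rw [← AlgEquiv.mul_apply]
  exact hx.apply_eq (by rw [map_mul, hτ, one_mul])

/-- The units outside `S` of the field cut out by the representation. -/
def sUnits (S : Finset ℕ) : Subgroup LLˣ where
  carrier := {x | IsFixed F (x : LL) ∧
    ∀ l : ℕ, l.Prime → l ∉ S → ∀ V : ValuationSubring LL, V.LiesOverPrime l →
      V.valuation (x : LL) = 1}
  one_mem' := ⟨fun σ _ => by simp, fun _ _ _ _ _ => by simp⟩
  mul_mem' := fun {a b} ha hb => ⟨fun σ hσ => by simp [ha.1 σ hσ, hb.1 σ hσ],
    fun l hl hlS V hV => by simp [ha.2 l hl hlS V hV, hb.2 l hl hlS V hV]⟩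
  inv_mem' := fun {a} ha => ⟨fun σ hσ => by simp [ha.1 σ hσ],
    fun l hl hlS V hV => by simp [ha.2 l hl hlS V hV]⟩

theorem valuation_apply_eq_one (σ : GG) (V : ValuationSubring LL) {x : LL}
    (h : (σ⁻¹ • V).valuation x = 1) : V.valuation (σ x) = 1 := by
  rcases eq_or_ne x 0 with rfl | hx
  · rw [map_zero] at h
    exact absurd h zero_ne_one
  have hmem : ∀ y : LL, y ∈ σ⁻¹ • V → σ y ∈ V := fun y hy => by
    rw [ValuationSubring.mem_pointwise_smul_iff_inv_smul_mem, inv_inv] at hy
    exact hy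
  refine le_antisymm ((V.valuation_le_one_iff _).2 (hmem _ (((σ⁻¹ • V).valuation_le_one_iff _).1
    h.le))) ?_
  have h2 := (V.valuation_le_one_iff _).2 (hmem _ (((σ⁻¹ • V).valuation_le_one_iff x⁻¹).1
    (by rw [map_inv₀, h, inv_one])))
  rwa [map_inv₀, map_inv₀,
    inv_le_one₀ (zero_lt_iff.2 ((Valuation.ne_zero_iff _).2 ((map_ne_zero σ).2 hx)))] at h2

theorem map_mem_sUnits {S : Finset ℕ} {x : LLˣ} (hx : x ∈ sUnits F S) (σ : GG) :
    Units.map (σ : LL →* LL) x ∈ sUnits F S :=
  ⟨hx.1.map σ, fun l hl hlS V hV => valuation_apply_eq_one σ V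
    (hx.2 l hl hlS (σ⁻¹ • V) (Places.liesOverPrime_smul V σ⁻¹ hV))⟩

/-- The units outside `S`, written additively. -/
abbrev UnitMod (S : Finset ℕ) : Type := Additive ↥(sUnits F S)

/-- The number behind an element. -/
def val {S : Finset ℕ} (a : UnitMod F S) : LL := ((Additive.toMul a : ↥(sUnits F S)) : LLˣ)

/-- The action of the image on the units. -/
def actU (S : Finset ℕ) : F.Γ →* AddMonoid.End (UnitMod F S) where
  toFun g := MonoidHom.toAdditive
    (((Units.map (lift F g : LL →* LL)).comp (sUnits F S).subtype).codRestrict (sUnits F S)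
      fun x => map_mem_sUnits F x.2 _)
  map_one' := AddMonoidHom.ext fun a => Additive.toMul.injective <| Subtype.ext <| Units.ext <| by
    show lift F 1 (val F a) = val F a
    exact (Additive.toMul a).2.1 _ (rb_lift F 1)
  map_mul' g h := AddMonoidHom.ext fun a => Additive.toMul.injective <| Subtype.ext <|
    Units.ext <| by
      show lift F (g * h) (val F a) = lift F g (lift F h (val F a))
      rw [← AlgEquiv.mul_apply]
      exact (Additive.toMul a).2.1.apply_eq (by rw [map_mul, rb_lift, rb_lift, rb_lift])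

theorem val_actU {S : Finset ℕ} (σ : GG) (a : UnitMod F S) :
    val F (actU F S ((pr F) σ) a) = σ (val F a) :=
  (Additive.toMul a).2.1.apply_eq (rb_lift F _)

/-- The image of a decomposition group. -/
def decImage (V : ValuationSubring LL) : Subgroup (F.Γ) :=
  (V.decompositionSubgroup ℚ).map (pr F)

/-- The places over `S`. -/
abbrev FinPl (S : Finset ℕ) (V : ℕ → ValuationSubring LL) : Type :=
  Σ l : ↥S, F.Γ ⧸ decImage F (V l)

/-- The infinite places, for the image `cb` of a complex conjugation. -/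
abbrev InfPl (cb : F.Γ) : Type :=
  F.Γ ⧸ Subgroup.zpowers cb

/-- All the places in question. -/
abbrev Pl (cb : F.Γ) (S : Finset ℕ) (V : ℕ → ValuationSubring LL) : Type :=
  InfPl F cb ⊕ FinPl F S V

/-- The equivariant form of the unit theorem. -/
structure DirichletData (cb : F.Γ) (S : Finset ℕ)
    (V : ℕ → ValuationSubring LL) where
  Φ : (Pl F cb S V → ℤ) →+ UnitMod F S
  equivariant : ∀ (g : F.Γ) (f : Pl F cb S V → ℤ),
    Φ (fun x => f (g⁻¹ • x)) = actU F S g (Φ f)
  torsion_iff : ∀ f : Pl F cb S V → ℤ,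
    IsOfFinAddOrder (Φ f) ↔ ∃ a : ℤ, f = Sum.elim (fun _ => a) (fun _ => 0)
  exists_nsmul : ∀ y : UnitMod F S, ∃ n : ℕ, n ≠ 0 ∧ n • y ∈ Φ.range

local instance (priority := 900) numberFieldF [FiniteDimensional ℚ F.K] : NumberField F.K := ⟨⟩

/-- The group of the field is the kernel of the projection. -/
theorem galOf_field : galOf F.K = (pr F).ker := (QuotientGroup.ker_mk' F.N).symm

instance field_finite : FiniteDimensional ℚ F.K := F.fd

theorem mem_field {x : LL} : x ∈ F.K ↔ IsFixed F x := by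
  refine ⟨fun h σ hσ => mem_fixed h σ ?_, fun h => ?_⟩
  · rw [galOf_field]; exact hσ
  · exact mem_of_galOf_fixed fun σ hσ => h σ (by rw [galOf_field] at hσ; exact hσ)

theorem map_mem_field (σ : GG) {x : LL} (hx : x ∈ F.K) : σ x ∈ F.K :=
  (mem_field F).2 (((mem_field F).1 hx).map σ)

theorem val_ne {S : Finset ℕ} (a : UnitMod F S) : val F a ≠ 0 :=
  ((Additive.toMul a : ↥(sUnits F S)) : LLˣ).ne_zero

theorem val_mem {S : Finset ℕ} (a : UnitMod F S) : val F a ∈ F.K :=
  (mem_field F).2 (Additive.toMul a).2.1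

theorem val_add {S : Finset ℕ} (a b : UnitMod F S) : val F (a + b) = val F a * val F b := rfl

theorem val_zero (S : Finset ℕ) : val F (0 : UnitMod F S) = 1 := rfl

theorem val_nsmul {S : Finset ℕ} (n : ℕ) (a : UnitMod F S) : val F (n • a) = val F a ^ n := by
  induction n with
  | zero => rw [zero_smul, val_zero, pow_zero]
  | succ n ih => rw [succ_nsmul, val_add, ih, pow_succ]

theorem val_neg {S : Finset ℕ} (a : UnitMod F S) : val F (-a) = (val F a)⁻¹ := by
  have h := val_add F a (-a)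
  rw [add_neg_cancel, val_zero] at h
  exact eq_inv_of_mul_eq_one_right h.symm

theorem val_zsmul {S : Finset ℕ} (n : ℤ) (a : UnitMod F S) : val F (n • a) = val F a ^ n := by
  obtain ⟨m, rfl | rfl⟩ := n.eq_nat_or_neg
  · rw [natCast_zsmul, val_nsmul, zpow_natCast]
  · rw [neg_smul, natCast_zsmul, val_neg, val_nsmul, zpow_neg, zpow_natCast]

theorem val_sum {S : Finset ℕ} {ι : Type} (s : Finset ι) (f : ι → UnitMod F S) :
    val F (∑ i ∈ s, f i) = ∏ i ∈ s, val F (f i) := by
  classical
  induction s using Finset.induction_on with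
  | empty => rw [Finset.sum_empty, Finset.prod_empty, val_zero]
  | insert i s his ih => rw [Finset.sum_insert his, Finset.prod_insert his, val_add, ih]

theorem val_injective {S : Finset ℕ} : Function.Injective (val F (S := S)) := fun _ _ h =>
  Additive.toMul.injective (Subtype.ext (Units.ext h))

/-- An element of the units outside `S`. -/
def mkUnit {S : Finset ℕ} (x : LL) (hx : x ∈ F.K) (hx0 : x ≠ 0)
    (h : ∀ P ∈ Out F.K S, ordP F.K P x = 0) : UnitMod F S :=
  Additive.ofMul ⟨Units.mk0 x hx0, (mem_field F).1 hx,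
    (valuation_eq_one_outside_iff F.K S hx hx0).2 h⟩

theorem val_mkUnit {S : Finset ℕ} {x : LL} (hx : x ∈ F.K) (hx0 : x ≠ 0)
    (h : ∀ P ∈ Out F.K S, ordP F.K P x = 0) :
    val F (mkUnit F x hx hx0 h) = x := rfl

theorem ord_val_eq_zero {S : Finset ℕ} (a : UnitMod F S) :
    ∀ P ∈ Out F.K S, ordP F.K P (val F a) = 0 :=
  (valuation_eq_one_outside_iff F.K S (val_mem F a) (val_ne F a)).1 (Additive.toMul a).2.2

/-- Finite generation of the units outside `S`. -/
theorem fg_unitMod (S : Finset ℕ) : AddGroup.FG (UnitMod F S) := by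
  classical
  set K := F.K
  let T : Finset (Ideal (𝓞 K)) :=
    (S.filter Nat.Prime).biUnion fun l => (normalizedFactors (Ideal.span {(l : 𝓞 K)})).toFinset
  let f : UnitMod F S →ₗ[ℤ] (↥T → ℤ) := (AddMonoidHom.mk'
    (fun a (P : ↥T) => ordP K (P : Ideal (𝓞 K)) (val F a)) fun a b => funext fun P => by
      rw [Pi.add_apply, val_add, ordP_mul K _ (val_mem F a) (val_mem F b) (val_ne F a) (val_ne F b)]
    ).toIntLinearMap
  have hunit : ∀ (u : (𝓞 K)ˣ) (P : Ideal (𝓞 K)), P.IsPrime → P ≠ ⊥ →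
      ordP K P (((u : 𝓞 K) : K) : LL) = 0 := fun u P hP hP0 => by
    haveI := hP
    rw [ordP_int K P hP0 u.ne_zero, (MW.expAt_eq_zero_iff hP0 u.ne_zero).2 fun h =>
      hP.ne_top (P.eq_top_of_isUnit_mem h u.isUnit)]
    rfl
  let g : Additive (𝓞 K)ˣ →ₗ[ℤ] UnitMod F S := (AddMonoidHom.mk'
    (fun u => mkUnit F ((((Additive.toMul u : (𝓞 K)ˣ) : 𝓞 K) : K) : LL)
      ((((Additive.toMul u : (𝓞 K)ˣ) : 𝓞 K) : K)).2 (coe_int_ne K (Units.ne_zero _))
      fun P hP => hunit _ P hP.1 hP.2.1) fun u v => val_injective F (by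
        simp only [val_add, val_mkUnit, toMul_add, Units.val_mul]
        push_cast
        rfl)).toIntLinearMap
  have hker : LinearMap.ker f ≤ LinearMap.range g := fun a ha => by
    have hall : ∀ P : Ideal (𝓞 K), P.IsPrime → P ≠ ⊥ → ordP K P (val F a) = 0 := fun P hP hP0 => by
      by_cases hout : P ∈ Out K S
      · exact ord_val_eq_zero F a P hout
      have h1 : ∃ l ∈ S, l.Prime ∧ (l : 𝓞 K) ∈ P := by
        by_contra hn
        push Not at hn
        exact hout ⟨hP, hP0, fun l hl hlp => hn l hl hlp⟩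
      obtain ⟨l, hl, hlp, hlP⟩ := h1
      have hPT : P ∈ T := Finset.mem_biUnion.2 ⟨l, Finset.mem_filter.2 ⟨hl, hlp⟩,
        Multiset.mem_toFinset.2 ((mem_normalizedFactors_iff
          (MW.span_ne_zero (Nat.cast_ne_zero.2 hlp.ne_zero))).2 ⟨Ideal.prime_of_isPrime hP0 hP,
            Ideal.dvd_span_singleton.2 hlP⟩)⟩
      exact congrFun (LinearMap.mem_ker.1 ha) ⟨P, hPT⟩
    obtain ⟨u, hu⟩ := exists_unit_of_ord_zero K (val_mem F a) (val_ne F a) hall
    exact ⟨Additive.ofMul u, val_injective F hu.symm⟩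
  haveI : Module.Finite ℤ (Additive (𝓞 K)ˣ) :=
    Module.Finite.iff_addGroup_fg.2 (AddGroup.fg_iff_addMonoid_fg.2 inferInstance)
  have hrange : (LinearMap.range g).FG := (Module.Finite.iff_fg).1 inferInstance
  have hkfg : (LinearMap.ker f).FG := by
    haveI : IsNoetherian ℤ ↥(LinearMap.range g) :=
      isNoetherian_of_fg_of_noetherian _ hrange
    haveI : Module.Finite ℤ ↥((LinearMap.ker f).comap (LinearMap.range g).subtype) := inferInstance
    have h := Submodule.FG.map (LinearMap.range g).subtype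
      (Module.Finite.iff_fg.1 (inferInstance :
        Module.Finite ℤ ↥((LinearMap.ker f).comap (LinearMap.range g).subtype)))
    rwa [Submodule.map_comap_subtype, inf_eq_right.2 hker] at h
  refine Module.Finite.iff_addGroup_fg.1 ⟨Submodule.fg_of_fg_map_of_fg_inf_ker f ?_ ?_⟩
  · exact IsNoetherian.noetherian _
  · rwa [top_inf_eq]

/-- Elements which are almost `p`-th powers. -/
theorem exists_split {S : Finset ℕ}
    (hcl : ∀ P ∈ Out F.K S, ∃ z : LL, z ∈ F.K ∧ z ≠ 0 ∧ ordP F.K P z = 1 ∧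
      ∀ Q ∈ Out F.K S, Q ≠ P → ordP F.K Q z = 0)
    {α : LL} (hα0 : α ≠ 0) (hα : IsFixed F α)
    (hord : ∀ l : ℕ, l.Prime → l ∉ S → ∀ V : ValuationSubring LL, V.LiesOverPrime l →
      ∃ m : ℤ, V.valuation α = V.valuation ((l : LL) ^ ((p : ℤ) * m))) :
    ∃ (u : UnitMod F S) (y : LL), IsFixed F y ∧ y ≠ 0 ∧ α = val F u * y ^ p := by
  classical
  set K := F.K
  have hαK : α ∈ K := (mem_field F).2 hα
  have hdvd : ∀ P ∈ Out K S, (p : ℤ) ∣ ordP K P α := fun P hP => by
    obtain ⟨l, V, hl, hV, rfl, hlP⟩ := exists_place_under K hP.1 hP.2.1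
    obtain ⟨m, hm⟩ := hord l hl (fun h => hP.2.2 l h hl hlP) V hV
    have hl0 : (l : LL) ≠ 0 := Nat.cast_ne_zero.2 hl.ne_zero
    have hlK : (l : LL) ∈ K := natCast_mem K l
    have hw : α / (l : LL) ^ ((p : ℤ) * m) ∈ K := div_mem hαK (zpow_mem hlK _)
    have hw0 : α / (l : LL) ^ ((p : ℤ) * m) ≠ 0 := div_ne_zero hα0 (zpow_ne_zero _ hl0)
    have h1 : V.valuation (α / (l : LL) ^ ((p : ℤ) * m)) = 1 := by
      rw [map_div₀, hm, div_self ((Valuation.ne_zero_iff _).2 (zpow_ne_zero _ hl0))]
    rw [valuation_eq_one_iff_ordP K hl hV hw hw0, div_eq_mul_inv,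
      ordP_mul K _ hαK (inv_mem (zpow_mem hlK _)) hα0 (inv_ne_zero (zpow_ne_zero _ hl0)),
      ordP_inv K _ (zpow_mem hlK _) (zpow_ne_zero _ hl0), ordP_zpow K _ hlK hl0] at h1
    exact ⟨m * ordP K (primeUnder K V) (l : LL), by linarith⟩
  choose z hzK hz0 hz1 hz using hcl
  set B := (finite_ordP K hαK hα0).toFinset.filter (· ∈ Out K S)
  let e : Ideal (𝓞 K) → LL := fun P => if h : P ∈ Out K S then z P h ^ (ordP K P α / p) else 1
  have he : ∀ P ∈ B, e P ∈ K ∧ e P ≠ 0 := fun P hP => by
    simp only [e, dif_pos (Finset.mem_filter.1 hP).2]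
    exact ⟨zpow_mem (hzK _ _) _, zpow_ne_zero _ (hz0 _ _)⟩
  set y := ∏ P ∈ B, e P
  have hyK : y ∈ K := prod_mem fun P hP => (he P hP).1
  have hy0 : y ≠ 0 := Finset.prod_ne_zero_iff.2 fun P hP => (he P hP).2
  have hord' : ∀ Q ∈ Out K S, ordP K Q (α / y ^ p) = 0 := fun Q hQ => by
    rw [div_eq_mul_inv, ordP_mul K _ hαK (inv_mem (pow_mem hyK _)) hα0
      (inv_ne_zero (pow_ne_zero _ hy0)), ordP_inv K _ (pow_mem hyK _) (pow_ne_zero _ hy0),
      ← zpow_natCast y p, ordP_zpow K _ hyK hy0, ordP_prod K Q B e he]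
    have hterm : ∀ P ∈ B, ordP K Q (e P) = if P = Q then ordP K Q α / p else 0 := fun P hP => by
      have hPO := (Finset.mem_filter.1 hP).2
      simp only [e, dif_pos hPO, ordP_zpow K _ (hzK _ _) (hz0 _ _)]
      split_ifs with h
      · subst h; rw [hz1, mul_one]
      · rw [hz P hPO Q hQ (Ne.symm h), mul_zero]
    rw [Finset.sum_congr rfl hterm, Finset.sum_ite_eq']
    split_ifs with h
    · rw [Int.mul_ediv_cancel' (hdvd Q hQ), add_neg_cancel]
    · have h0 : ordP K Q α = 0 := by_contra fun hne => h (Finset.mem_filter.2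
        ⟨(finite_ordP K hαK hα0).mem_toFinset.2 ⟨hQ.1, hQ.2.1, hne⟩, hQ⟩)
      rw [h0, mul_zero, neg_zero, add_zero]
  refine ⟨mkUnit F (α / y ^ p) (div_mem hαK (pow_mem hyK _)) (div_ne_zero hα0 (pow_ne_zero _ hy0))
    hord', y, (mem_field F).1 hyK, hy0, ?_⟩
  rw [val_mkUnit, div_mul_cancel₀ _ (pow_ne_zero _ hy0)]

end FLTAgent.TWPrimes.Units
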